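import Fermat.Agent.AV.Defs
import Fermat.Agent.Curve.Integral

/-!
# Calculus of spots and divisor classes

Composition of spots, restriction of classes, and the injectivity up to torsion of the extension of
divisor classes along a field embedding.
-/

set_option autoImplicit false

noncomputable section

universe u

namespace FermatAgent.AV

variable {K : Type u} [Field K]
variable {F E G : Type u} [Field F] [Algebra K F] [Field E] [Algebra K E] [Field G] [Algebra K G]

theorem kVal_eq_top (V : KVal K K) : V.1 = ⊤ :=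
  top_unique fun x _ => V.2 x

namespace Spot

theorem ext' {r r' : Spot K F E} (hV : r.V = r'.V)
    (hρ : ∀ (x : F) (h : x ∈ r.V) (h' : x ∈ r'.V), r.ρ ⟨x, h⟩ = r'.ρ ⟨x, h'⟩) : r = r' := by
  obtain ⟨V, i, ρ, a, b⟩ := r
  obtain ⟨V', i', ρ', a', b'⟩ := r'
  subst hV
  obtain rfl : ρ = ρ' := RingHom.ext fun x => hρ x.1 x.2 x.2
  rfl

theorem mem_ofHom (φ : F →ₐ[K] E) (x : F) : x ∈ (ofHom φ).V := ValuationSubring.mem_top x

theorem pull_ofHom (φ : F →ₐ[K] E) (W : KVal K E) :
    ((ofHom φ).pull W).1 = W.1.comap φ.toRingHom :=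
  SetLike.ext fun x => by
    rw [Spot.pull, mem_pullRing, ValuationSubring.mem_comap]
    exact ⟨fun ⟨_, h⟩ => h, fun h => ⟨mem_ofHom φ x, h⟩⟩

theorem ofHom_comp (ψ : E →ₐ[K] G) (r : Spot K F E) :
    ((ofHom ψ).comp r).V = r.V ∧
      ∀ (x : F) (h : x ∈ ((ofHom ψ).comp r).V) (h' : x ∈ r.V),
        ((ofHom ψ).comp r).ρ ⟨x, h⟩ = ψ (r.ρ ⟨x, h'⟩) :=
  ⟨SetLike.ext fun x => by
    show x ∈ r.pullRing _ ↔ _
    rw [mem_pullRing]
    exact ⟨fun ⟨h, _⟩ => h, fun h => ⟨h, mem_ofHom ψ _⟩⟩, fun _ _ _ => rfl⟩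

theorem coe_res_ofHom (φ : F →ₐ[K] E) (d : vDiv K F) (W : KVal K E) :
    (((ofHom φ).res d).1 W : E) = φ ((d.1 ((ofHom φ).pull W) / d.1 (ofHom φ).kVal : Fˣ) : F) := by
  rw [coe_res_apply, resFun, coe_unitRed _ _ (mem_ofHom φ _)]
  rfl

end Spot

/-! ### Torsion classes -/

theorem IsTors.one {M : Type*} [CommGroup M] : IsTors (1 : M) := ⟨1, one_pos, one_pow 1⟩

theorem IsTors.mul {M : Type*} [CommGroup M] {x y : M} (hx : IsTors x) (hy : IsTors y) :
    IsTors (x * y) := by
  obtain ⟨m, hm, hx⟩ := hx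
  obtain ⟨n, hn, hy⟩ := hy
  refine ⟨m * n, mul_pos hm hn, ?_⟩
  rw [mul_pow, pow_mul, hx, one_pow, one_mul, mul_comm m n, pow_mul, hy, one_pow]

theorem IsTors.inv {M : Type*} [CommGroup M] {x : M} (hx : IsTors x) : IsTors x⁻¹ := by
  obtain ⟨m, hm, hx⟩ := hx
  exact ⟨m, hm, by rw [inv_pow, hx, inv_one]⟩

theorem IsTors.map {M N : Type*} [CommGroup M] [CommGroup N] (f : M →* N) {x : M}
    (hx : IsTors x) : IsTors (f x) := by
  obtain ⟨m, hm, hx⟩ := hx
  exact ⟨m, hm, by rw [← map_pow, hx, map_one]⟩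

theorem IsTors.pow {M : Type*} [CommGroup M] {x : M} (hx : IsTors x) (k : ℕ) : IsTors (x ^ k) := by
  obtain ⟨m, hm, hx⟩ := hx
  exact ⟨m, hm, by rw [pow_right_comm, hx, one_pow]⟩

/-- An element integral over the image of a valuation ring at all valuations above it. -/
theorem isIntegral_of_forall_valuationSubring [Algebra F E] (V : ValuationSubring F) {a : E}
    (h : ∀ W : ValuationSubring E, (∀ x ∈ V, algebraMap F E x ∈ W) → a ∈ W) : IsIntegral V a :=
  Curve.isIntegralElem_of_forall_valuationSubring (algebraMap V E) fun W hW =>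
    h W fun x hx => hW ⟨x, hx⟩

/-- **Extension of classes is injective up to torsion**: a divisor class on `F` whose extension
along an embedding `F → E` over `K` is torsion is itself torsion. -/
theorem isTors_of_resPic_ofHom (φ : F →ₐ[K] E) {x : VPic K F}
    (hx : IsTors ((Spot.ofHom φ).resPic x)) : IsTors x := by
  obtain ⟨m, hm, hx⟩ := hx
  rw [← map_pow] at hx
  suffices h : IsTors (x ^ m) by
    obtain ⟨k, hk, hk'⟩ := h
    exact ⟨m * k, mul_pos hm hk, by rw [pow_mul, hk']⟩
  generalize x ^ m = y at hx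
  induction y using QuotientGroup.induction_on with
  | _ d =>
  obtain ⟨h, hh⟩ := (cls_eq_one_iff _).mp hx
  let : Algebra F E := φ.toRingHom.toAlgebra
  have : IsScalarTower K F E := IsScalarTower.of_algebraMap_eq fun a => (φ.commutes a).symm
  set t := d.1 (Spot.ofHom φ).kVal
  -- at every valuation above `V`, the element is `d V / t`
  have hW : ∀ (V : KVal K F) (W : ValuationSubring E), (∀ x ∈ V.1, algebraMap F E x ∈ W) →
      Units.map φ.toMonoidHom (d.1 V / t) / h ∈ W.unitGroup := fun V W hV => by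
    let W' : KVal K E := ⟨W, fun a => by
      rw [IsScalarTower.algebraMap_apply K F E]; exact hV _ (V.2 a)⟩
    set V' := (Spot.ofHom φ).pull W' with hV'
    have hle : V.1 ≤ V'.1 := fun x hx =>
      ((Spot.ofHom φ).mem_pullRing W).mpr ⟨Spot.mem_ofHom φ x, hV x hx⟩
    have h1 := d.2 V V' hle
    have h2 := hh W'
    have h3 : ((Spot.ofHom φ).res d).1 W' = Units.map φ.toMonoidHom (d.1 V' / t) :=
      Units.ext (Spot.coe_res_ofHom φ d W')
    rw [h3] at h2
    have h4 : Units.map φ.toMonoidHom (d.1 V / d.1 V') ∈ W.unitGroup := by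
      have h5 : ∀ z : Fˣ, z ∈ V'.1.unitGroup → φ (z : F) ∈ W := fun z hz =>
        (((Spot.ofHom φ).mem_pullRing W).mp ((V'.1.valuation_le_one_iff _).mp (le_of_eq hz))).2
      rw [ValuationSubring.mem_unitGroup_iff]
      refine le_antisymm ((W.valuation_le_one_iff _).mpr (h5 _ h1)) ?_
      have h6 := (W.valuation_le_one_iff _).mpr (h5 _ (inv_mem h1))
      rw [Units.val_inv_eq_inv_val, map_inv₀, map_inv₀, inv_le_one₀
        (zero_lt_iff.mpr ((Valuation.ne_zero_iff _).mpr (by simp)))] at h6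
      exact h6
    have h7 := mul_mem h4 h2
    rwa [← mul_div_assoc, ← map_mul, ← mul_div_assoc, div_mul_cancel] at h7
  -- so `h` is algebraic
  have hint : IsIntegral F (h : E) := by
    have hi : IsIntegral (⊤ : ValuationSubring F) (h : E) :=
      isIntegral_of_forall_valuationSubring ⊤ fun W hV => by
        have h1 := inv_mem (hW topVal W hV)
        rw [inv_div, show d.1 topVal / t = 1 from div_eq_one.mpr rfl, map_one, div_one] at h1
        exact (W.valuation_le_one_iff _).mp (le_of_eq h1)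
    obtain ⟨p, hp, hp0⟩ := hi
    exact ⟨p.map (ValuationSubring.subtype _), hp.map _, by
      rw [Polynomial.eval₂_map]; exact hp0⟩
  have := IntermediateField.adjoin.finiteDimensional hint
  set h₁ : IntermediateField.adjoin F {(h : E)} :=
    ⟨(h : E), IntermediateField.mem_adjoin_simple_self F _⟩
  set n := Module.finrank F (IntermediateField.adjoin F {(h : E)})
  have hn : 0 < n := Module.finrank_pos
  have hη : Algebra.norm F h₁ ≠ 0 := Algebra.norm_ne_zero_iff.mpr fun e =>
    h.ne_zero (congrArg Subtype.val e)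
  refine ⟨n, hn, ?_⟩
  rw [← QuotientGroup.mk_pow, cls_eq_one_iff]
  refine ⟨t ^ n * Units.mk0 _ hη, fun V => ?_⟩
  set c := d.1 V / t
  have hc : (d ^ n).1 V / (t ^ n * Units.mk0 _ hη) = c ^ n / Units.mk0 _ hη := by
    rw [Subgroup.coe_pow, Pi.pow_apply, div_mul_eq_div_div, div_pow]
  rw [hc, ValuationSubring.mem_unitGroup_iff]
  have key : ∀ (a : IntermediateField.adjoin F {(h : E)}),
      (∀ W : ValuationSubring E, (∀ x ∈ V.1, algebraMap F E x ∈ W) → (a : E) ∈ W) →
      Algebra.norm F a ∈ V.1 := fun a ha => by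
    have hi : IsIntegral V.1 a := (isIntegral_algebraMap_iff
      (algebraMap (IntermediateField.adjoin F {(h : E)}) E).injective).mp
      (isIntegral_of_forall_valuationSubring V.1 ha)
    obtain ⟨v, hv⟩ := IsIntegrallyClosed.isIntegral_iff.mp (Algebra.isIntegral_norm F hi)
    exact hv ▸ v.2
  have hmem : ∀ W : ValuationSubring E, (∀ x ∈ V.1, algebraMap F E x ∈ W) →
      φ (c : F) / (h : E) ∈ W ∧ (h : E) / φ (c : F) ∈ W := fun W hV => by
    have h1 := hW V W hV
    have h2 := inv_mem h1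
    rw [inv_div] at h2
    constructor
    · simpa [c] using (W.valuation_le_one_iff _).mp (le_of_eq h1)
    · simpa [c] using (W.valuation_le_one_iff _).mp (le_of_eq h2)
  have hdiv : ∀ a b : IntermediateField.adjoin F {(h : E)}, b ≠ 0 →
      Algebra.norm F (a / b) = Algebra.norm F a / Algebra.norm F b := fun a b hb => by
    rw [eq_div_iff (Algebra.norm_ne_zero_iff.mpr hb), ← map_mul, div_mul_cancel₀ _ hb]
  have hh1 : h₁ ≠ 0 := fun e => h.ne_zero (congrArg Subtype.val e)
  have hc1 : algebraMap F (IntermediateField.adjoin F {(h : E)}) (c : F) ≠ 0 :=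
    (map_ne_zero _).mpr c.ne_zero
  have k1 : (c : F) ^ n / Algebra.norm F h₁ ∈ V.1 := by
    have := key (algebraMap F _ (c : F) / h₁) fun W hV => (hmem W hV).1
    rwa [hdiv _ _ hh1, Algebra.norm_algebraMap] at this
  have k2 : Algebra.norm F h₁ / (c : F) ^ n ∈ V.1 := by
    have := key (h₁ / algebraMap F _ (c : F)) fun W hV => (hmem W hV).2
    rwa [hdiv _ _ hc1, Algebra.norm_algebraMap] at this
  refine le_antisymm ((V.1.valuation_le_one_iff _).mpr (by simpa using k1)) ?_
  have k3 := (V.1.valuation_le_one_iff _).mpr k2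
  rw [← inv_div ((c : F) ^ n), map_inv₀, inv_le_one₀ (zero_lt_iff.mpr ((Valuation.ne_zero_iff _).mpr
    (div_ne_zero (pow_ne_zero _ c.ne_zero) hη)))] at k3
  simpa using k3

end FermatAgent.AV
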