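import Fermat.Agent.AV.Places
import Fermat.Agent.Curve.FunctionField

/-!
# A curve joining a generic point to the origin

Noether normalisation of a chart at the origin and going down along a line give an integral curve
over `Ω` through a conjugate of the generic point and through the origin.
-/

set_option autoImplicit false

noncomputable section

universe u

open scoped TensorProduct

namespace FermatAgent.AV

variable {K : Type u} [Field K]

/-- A rational spot extending a rational homomorphism of a subring. -/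
theorem exists_spot_rational_hom [IsAlgClosed K] {F T : Type u} [Field F] [Algebra K F]
    [CommRing T] [Algebra K T] (i : T →ₐ[K] F) (hi : Function.Injective i) (e : T →ₐ[K] K) :
    ∃ c : Spot K F K, ∃ hV : ∀ t, i t ∈ c.V, ∀ t, c.ρ ⟨i t, hV t⟩ = e t := by
  obtain ⟨E, instE, instA, ι, r, hr, hre⟩ := exists_spot i hi e
  obtain ⟨s⟩ := exists_spot_rational (K := K) E
  have h1 : ∀ t, r.ρ ⟨i t, hr t⟩ = algebraMap K E (e t) := fun t => (hre t).trans (ι.commutes _)
  refine ⟨s.comp r, fun t => (r.mem_pullRing _).mpr ⟨hr t, (h1 t).symm ▸ s.isOver _⟩,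
    fun t => ?_⟩
  exact (congrArg s.ρ (Subtype.ext (h1 t))).trans (s.ρ_algebraMap _)

section Algebra

open MvPolynomial (aeval)

variable {Ω A : Type u} [Field Ω] [CommRing A] [Algebra Ω A] {d : ℕ}

/-- Two points over the ends of a line lie on a common prime over the line. -/
theorem exists_prime_through [IsAlgClosed Ω] [IsDomain A] [Algebra.FiniteType Ω A]
    (g : MvPolynomial (Fin d) Ω →ₐ[Ω] A) (hg : Function.Injective g)
    (hint : g.toRingHom.IsIntegral) (e₂ : A →ₐ[Ω] Ω) (β : Fin d → Ω) :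
    ∃ (P : Ideal A) (e₁ : A →ₐ[Ω] Ω), P.IsPrime ∧ P ≤ RingHom.ker e₁ ∧ P ≤ RingHom.ker e₂ ∧
      (∀ i, e₁ (g (.X i)) = β i) ∧ ∀ p, g p ∈ P ↔ aeval (fun i =>
        Polynomial.C (e₂ (g (.X i))) +
          Polynomial.X * Polynomial.C (β i - e₂ (g (.X i)))) p = 0 := by
  let α : Fin d → Ω := fun i => e₂ (g (.X i))
  let : Algebra (MvPolynomial (Fin d) Ω) A := g.toRingHom.toAlgebra
  have : FaithfulSMul (MvPolynomial (Fin d) Ω) A :=
    (faithfulSMul_iff_algebraMap_injective _ _).mpr hg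
  have : Algebra.IsIntegral (MvPolynomial (Fin d) Ω) A := ⟨hint⟩
  let lam : MvPolynomial (Fin d) Ω →ₐ[Ω] Polynomial Ω :=
    aeval fun i => Polynomial.C (α i) + Polynomial.X * Polynomial.C (β i - α i)
  set q : Ideal (MvPolynomial (Fin d) Ω) := RingHom.ker lam
  have : q.IsPrime := RingHom.ker_isPrime _
  have hev : ∀ (x : Ω) (γ : Fin d → Ω), (∀ i, α i + x * (β i - α i) = γ i) →
      q ≤ RingHom.ker (aeval γ : MvPolynomial (Fin d) Ω →ₐ[Ω] Ω) := fun x γ hγ p hp => by
    have e : (Polynomial.aeval x).comp lam = (aeval γ : MvPolynomial (Fin d) Ω →ₐ[Ω] Ω) :=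
      MvPolynomial.algHom_ext fun i => by simpa [lam] using hγ i
    have hp0 : lam p = 0 := hp
    show aeval γ p = 0
    rw [← e, AlgHom.comp_apply, hp0, map_zero]
  have he₂ : ∀ p, e₂ (g p) = aeval α p := fun p => DFunLike.congr_fun
    (show e₂.comp g = aeval α from MvPolynomial.algHom_ext fun i => by simp [α]) p
  have : (RingHom.ker (aeval α : MvPolynomial (Fin d) Ω →ₐ[Ω] Ω)).IsPrime := RingHom.ker_isPrime _
  have : (RingHom.ker e₂).IsPrime := RingHom.ker_isPrime _
  have : (RingHom.ker e₂).LiesOver (RingHom.ker (aeval α : MvPolynomial (Fin d) Ω →ₐ[Ω] Ω)) :=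
    ⟨Ideal.ext fun p => by
      show aeval α p = 0 ↔ e₂ (g p) = 0
      rw [he₂]⟩
  obtain ⟨P, hPQ, hPprime, hPover⟩ :=
    Ideal.exists_ideal_le_liesOver_of_le (RingHom.ker e₂) (hev 0 α fun i => by simp)
  have := hPprime
  have hPq : P.comap (algebraMap (MvPolynomial (Fin d) Ω) A) = q := hPover.over.symm
  set m₁ : Ideal (MvPolynomial (Fin d) Ω) := RingHom.ker (aeval β : _ →ₐ[Ω] Ω)
  have : m₁.IsMaximal := RingHom.ker_isMaximal_of_surjective _
    fun a => ⟨algebraMap Ω _ a, (aeval β).commutes a⟩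
  obtain ⟨Q₁, hPQ₁, hQ₁, hQ₁c⟩ := Ideal.exists_ideal_over_prime_of_isIntegral_of_isPrime m₁ P
    (hPq.trans_le (hev 1 β fun i => by simp))
  have : Q₁.IsMaximal := Ideal.isMaximal_of_isIntegral_of_isMaximal_comap
    (R := MvPolynomial (Fin d) Ω) Q₁ (by rw [hQ₁c]; infer_instance)
  have := finite_quotient_maximal (k := Ω) Q₁
  obtain ⟨e₁, he₁ker⟩ := exists_algHom_ker (k := Ω) Q₁
  refine ⟨P, e₁, hPprime, fun z hz => (he₁ker z).mpr (hPQ₁ hz), hPQ, fun i => ?_,
    fun p => SetLike.ext_iff.mp hPq p⟩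
  have h1 : (.X i - .C (β i) : MvPolynomial (Fin d) Ω) ∈ m₁ := by
    show aeval β _ = (0 : Ω)
    simp
  rw [← hQ₁c] at h1
  have h2 := (he₁ker _).mpr h1
  rw [show algebraMap (MvPolynomial (Fin d) Ω) A _ = g _ from rfl, map_sub, map_sub,
    ← MvPolynomial.algebraMap_eq, g.commutes, e₁.commutes, sub_eq_zero] at h2
  exact h2

/-- A field generated by a domain integral over a line is a function field of one variable. -/
theorem isFF_of_line {C : Type u} [Field C] [Algebra Ω C] [Algebra.FiniteType Ω A]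
    (π : A →ₐ[Ω] C) (hfrac : ∀ x : C, ∃ u v, x = π u / π v)
    (g : MvPolynomial (Fin d) Ω →ₐ[Ω] A) (hint : g.toRingHom.IsIntegral) (α δ : Fin d → Ω)
    (hπ : ∀ p, π (g p) = 0 ↔ aeval (fun i =>
      Polynomial.C (α i) + Polynomial.X * Polynomial.C (δ i)) p = 0)
    (i₀ : Fin d) (hne : δ i₀ ≠ 0) : FermatAgent.Curve.IsFF Ω C := by
  let t : C := π (g (.X i₀))
  have ht : Transcendental Ω t := by
    rintro ⟨p, hp0, hp⟩
    have h1 : π (g (Polynomial.aeval (.X i₀ : MvPolynomial (Fin d) Ω) p)) = 0 := by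
      rw [← Polynomial.aeval_algHom_apply, ← Polynomial.aeval_algHom_apply]
      exact hp
    rw [hπ, ← Polynomial.aeval_algHom_apply, MvPolynomial.aeval_X] at h1
    rcases Polynomial.comp_eq_zero_iff.mp (Polynomial.comp_eq_aeval.trans h1) with h4 | ⟨-, h4⟩
    · exact hp0 h4
    · have h5 := congrArg (fun f : Polynomial Ω => f.coeff 1) h4
      simp only [Polynomial.coeff_add, Polynomial.coeff_C, Polynomial.coeff_X_mul,
        one_ne_zero, if_false, zero_add, if_true] at h5
      exact hne h5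
  refine ⟨⟨t, ht, ?_⟩⟩
  set E₀ := IntermediateField.adjoin Ω {t}
  have hline : ∀ i, π (g (.X i)) ∈ E₀ := fun i => by
    let w := (δ i₀)⁻¹ * δ i
    have h1 : π (g (.X i - (.C (α i) + .C w * (.X i₀ - .C (α i₀))))) = 0 := by
      rw [hπ]
      simp only [map_sub, map_add, map_mul, MvPolynomial.aeval_X, MvPolynomial.aeval_C,
        Polynomial.algebraMap_apply, Algebra.algebraMap_self, RingHom.id_apply]
      have e : w * δ i₀ = δ i := by
        rw [mul_comm, ← mul_assoc, mul_inv_cancel₀ hne, one_mul]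
      rw [← e, Polynomial.C_mul]
      ring
    rw [map_sub, map_sub, sub_eq_zero] at h1
    rw [h1]
    simp only [← MvPolynomial.algebraMap_eq, map_add, map_mul, map_sub, AlgHom.commutes]
    exact add_mem (E₀.algebraMap_mem _) (mul_mem (E₀.algebraMap_mem _)
      (sub_mem (IntermediateField.mem_adjoin_simple_self Ω t) (E₀.algebraMap_mem _)))
  have hS : ∀ p, π (g p) ∈ E₀ := fun p => by
    induction p using MvPolynomial.induction_on with
    | C a =>
      rw [← MvPolynomial.algebraMap_eq, g.commutes, π.commutes]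
      exact E₀.algebraMap_mem a
    | add p q hp hq => rw [map_add, map_add]; exact add_mem hp hq
    | mul_X p i hp => rw [map_mul, map_mul]; exact mul_mem hp (hline i)
  have hintE : ∀ z : A, IsIntegral E₀ (π z) := fun z => by
    obtain ⟨p, hp, hp0⟩ := hint z
    let σ : MvPolynomial (Fin d) Ω →+* E₀ :=
      (π.toRingHom.comp g.toRingHom).codRestrict E₀.toSubfield hS
    refine ⟨p.map σ, hp.map σ, ?_⟩
    rw [Polynomial.eval₂_map, show (algebraMap E₀ C).comp σ = π.toRingHom.comp g.toRingHom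
      from RingHom.ext fun _ => rfl]
    show Polynomial.eval₂ _ (π.toRingHom z) p = 0
    rw [← Polynomial.hom_eval₂]
    exact (congrArg π.toRingHom hp0).trans (map_zero _)
  obtain ⟨s, hs⟩ := (inferInstance : Algebra.FiniteType Ω A).1
  have hB : ∀ z : A, π z ∈ IntermediateField.adjoin E₀ (π '' (s : Set A)) := fun z => by
    have hz : z ∈ Algebra.adjoin Ω (s : Set A) := hs ▸ Algebra.mem_top
    induction hz using Algebra.adjoin_induction with
    | mem x hx => exact IntermediateField.subset_adjoin _ _ ⟨x, hx, rfl⟩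
    | algebraMap a =>
      rw [π.commutes, IsScalarTower.algebraMap_apply Ω E₀ C]
      exact IntermediateField.algebraMap_mem _ _
    | add x y _ _ hx hy => rw [map_add]; exact add_mem hx hy
    | mul x y _ _ hx hy => rw [map_mul]; exact mul_mem hx hy
  have htop : IntermediateField.adjoin E₀ (π '' (s : Set A)) = ⊤ := eq_top_iff.mpr fun x _ => by
    obtain ⟨u, v, rfl⟩ := hfrac x
    exact div_mem (hB u) (hB v)
  have : Finite (π '' (s : Set A)) := (s.finite_toSet.image _).to_subtype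
  have h := IntermediateField.finiteDimensional_adjoin (K := E₀) (S := π '' (s : Set A))
    (fun x ⟨z, _, hz⟩ => hz ▸ hintE z)
  rw [htop] at h
  exact Module.Finite.equiv (IntermediateField.topEquiv (F := E₀) (E := C)).toLinearEquiv

variable [Algebra K Ω] {R : Type u} [CommRing R] [Algebra K R]

/-- Base change of a Noether normalisation. -/
theorem exists_baseChange_normalisation (gN : MvPolynomial (Fin d) K →ₐ[K] R)
    (hgN : Function.Injective gN) (hint : gN.toRingHom.IsIntegral) :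
    ∃ g : MvPolynomial (Fin d) Ω →ₐ[Ω] Ω ⊗[K] R, Function.Injective g ∧ g.toRingHom.IsIntegral ∧
      ∀ p, g (MvPolynomial.map (algebraMap K Ω) p) = 1 ⊗ₜ gN p := by
  let gΩ : MvPolynomial (Fin d) Ω →ₐ[Ω] Ω ⊗[K] R :=
    (Algebra.TensorProduct.map (AlgHom.id Ω Ω) gN).comp
      (MvPolynomial.algebraTensorAlgEquiv K Ω).symm.toAlgHom
  have hgΩK : ∀ p : MvPolynomial (Fin d) K,
      gΩ (MvPolynomial.map (algebraMap K Ω) p) = 1 ⊗ₜ gN p := fun p => by
    show Algebra.TensorProduct.map (AlgHom.id Ω Ω) gN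
      ((MvPolynomial.algebraTensorAlgEquiv K Ω).symm _) = _
    rw [show MvPolynomial.map (algebraMap K Ω) p =
      MvPolynomial.algebraTensorAlgEquiv K Ω (1 ⊗ₜ p) by simp, AlgEquiv.symm_apply_apply]
    simp
  refine ⟨gΩ, (Module.Flat.lTensor_preserves_injective_linearMap gN.toLinearMap hgN).comp
      (MvPolynomial.algebraTensorAlgEquiv (σ := Fin d) K Ω).symm.injective, fun z => ?_, hgΩK⟩
  let : Algebra (MvPolynomial (Fin d) Ω) (Ω ⊗[K] R) := gΩ.toRingHom.toAlgebra
  show IsIntegral (MvPolynomial (Fin d) Ω) z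
  induction z using TensorProduct.induction_on with
  | zero => exact isIntegral_zero
  | tmul w r =>
    obtain ⟨p, hp, hp0⟩ := hint r
    have h1 : IsIntegral (MvPolynomial (Fin d) Ω) ((1 : Ω) ⊗ₜ[K] r : Ω ⊗[K] R) := by
      refine ⟨p.map (MvPolynomial.map (algebraMap K Ω)), hp.map _, ?_⟩
      have e : gΩ.toRingHom.comp (MvPolynomial.map (algebraMap K Ω)) =
          (Algebra.TensorProduct.includeRight : R →ₐ[K] Ω ⊗[K] R).toRingHom.comp gN.toRingHom :=
        RingHom.ext hgΩK
      rw [Polynomial.eval₂_map]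
      show Polynomial.eval₂ (gΩ.toRingHom.comp _)
        ((Algebra.TensorProduct.includeRight : R →ₐ[K] Ω ⊗[K] R).toRingHom r) p = 0
      rw [e, ← Polynomial.hom_eval₂, hp0, map_zero]
    have h2 : (w ⊗ₜ[K] r : Ω ⊗[K] R) = gΩ (MvPolynomial.C w) * (1 ⊗ₜ r) := by
      rw [← MvPolynomial.algebraMap_eq, gΩ.commutes]
      simp [Algebra.TensorProduct.algebraMap_apply]
    rw [h2]
    exact (isIntegral_algebraMap (R := MvPolynomial (Fin d) Ω) (x := MvPolynomial.C w)).mul h1
  | add x y hx hy => exact hx.add hy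

end Algebra

namespace Model

variable {g : ℕ} (M : Model K g)

theorem isFractionRing_ring (c : M.Chart) : IsFractionRing (M.ring c) M.FA := by
  have : FaithfulSMul (M.ring c) M.FA :=
    (faithfulSMul_iff_algebraMap_injective _ _).mpr Subtype.val_injective
  refine IsFractionRing.of_field _ _ fun z => ?_
  have hz : z ∈ IntermediateField.adjoin K (M.ring c : Set M.FA) :=
    (M.ring_frac c).symm ▸ IntermediateField.mem_top
  obtain ⟨r, hr, s, hs, e⟩ := IntermediateField.mem_adjoin_iff_div.mp hz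
  rw [Algebra.adjoin_eq] at hr hs
  exact ⟨⟨r, hr⟩, ⟨s, hs⟩, e⟩

variable [IsAlgClosed K]

/-- **A curve through a generic point and the origin**: over the algebraic closure `Ω` of the
function field of the variety some conjugate of the generic point is the origin, or is joined to
it by a curve: a point with values in a function field of one variable over `Ω` specialising to
both. -/
theorem exists_curve_to_zero : ∃ j₁ : M.FA →ₐ[K] AlgebraicClosure M.FA,
    M.map (Spot.ofHom j₁) M.gen = 0 ∨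
    ∃ (C : Type u) (_ : Field C) (_ : Algebra K C) (_ : Algebra (AlgebraicClosure M.FA) C)
      (_ : IsScalarTower K (AlgebraicClosure M.FA) C)
      (_ : FermatAgent.Curve.IsFF (AlgebraicClosure M.FA) C) (φ : M.Pts C)
      (c₁ c₂ : Spot (AlgebraicClosure M.FA) C (AlgebraicClosure M.FA)),
      M.map c₁.restrict φ = M.map (Spot.ofHom j₁) M.gen ∧ M.map c₂.restrict φ = 0 := by
  classical
  obtain ⟨c₀, h₀, hh₀⟩ := M.exists_chart (0 : M.Pts K)
  have : Algebra.FiniteType K (M.ring c₀) := (M.ring c₀).fg_iff_finiteType.mp (M.ring_fg c₀)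
  have hfrac : IsFractionRing (M.ring c₀) M.FA := M.isFractionRing_ring c₀
  obtain ⟨d, gN, hgN, hfin⟩ := exists_finite_inj_algHom_of_fg K (M.ring c₀)
  have hint : gN.toRingHom.IsIntegral := RingHom.Finite.to_isIntegral hfin
  let Ω := AlgebraicClosure M.FA
  let j₀ : M.FA →ₐ[K] Ω := IsScalarTower.toAlgHom K M.FA Ω
  let zeroΩ : M.ring c₀ →ₐ[K] Ω := (Algebra.ofId K Ω).comp h₀
  have hzero : M.pt c₀ zeroΩ = 0 := by
    rw [← map_ofHom_pt, hh₀, map_zero]
  rcases Nat.eq_zero_or_pos d with rfl | hd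
  · -- the chart is a point
    refine ⟨j₀, Or.inl ?_⟩
    have : Algebra.IsIntegral K (M.ring c₀) := ⟨fun r => by
      let := gN.toRingHom.toAlgebra
      have : IsScalarTower K (MvPolynomial (Fin 0) K) (M.ring c₀) :=
        IsScalarTower.of_algebraMap_eq fun a => (gN.commutes a).symm
      have : Algebra.IsIntegral K (MvPolynomial (Fin 0) K) := ⟨fun p => by
        obtain ⟨a, rfl⟩ := MvPolynomial.C_surjective (Fin 0) p
        exact isIntegral_algebraMap (x := a)⟩
      exact isIntegral_trans r (hint r)⟩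
    have hsur : Function.Surjective (algebraMap K (M.ring c₀)) :=
      IsAlgClosed.algebraMap_bijective_of_isIntegral.2
    rw [map_gen_eq_pt M c₀, ← hzero]
    refine congrArg (M.pt c₀) (AlgHom.ext fun r => ?_)
    obtain ⟨a, rfl⟩ := hsur r
    rw [AlgHom.commutes, AlgHom.commutes]
  obtain ⟨gΩ, hgΩ, hintΩ, hgΩK⟩ := exists_baseChange_normalisation (Ω := Ω) gN hgN hint
  have : IsDomain (Ω ⊗[K] M.ring c₀) := isDomain_tensor
  let e₂ : Ω ⊗[K] M.ring c₀ →ₐ[Ω] Ω :=
    Algebra.TensorProduct.lift (AlgHom.id Ω Ω) zeroΩ fun _ _ => Commute.all _ _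
  let β : Fin d → Ω := fun i => j₀ (gN (MvPolynomial.X i) : M.FA)
  have hX : ∀ i, gΩ (MvPolynomial.X i) = 1 ⊗ₜ gN (MvPolynomial.X i) := fun i => by
    rw [← hgΩK, MvPolynomial.map_X]
  obtain ⟨P, e₁, hP, hP₁, hP₂, he₁, hPline⟩ := exists_prime_through gΩ hgΩ hintΩ e₂ β
  let τ : M.ring c₀ →ₐ[K] Ω :=
    (e₁.restrictScalars K).comp Algebra.TensorProduct.includeRight
  have hτg : τ.comp gN = (j₀.comp (M.ring c₀).val).comp gN := MvPolynomial.algHom_ext fun i => by
    show e₁ (1 ⊗ₜ gN (MvPolynomial.X i)) = _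
    rw [← hX, he₁]
    rfl
  have hτ : Function.Injective τ := by
    let := gN.toRingHom.toAlgebra
    have : Algebra.IsIntegral (MvPolynomial (Fin d) K) (M.ring c₀) := ⟨hint⟩
    refine (injective_iff_map_eq_zero τ).mpr fun r hr => ?_
    have : RingHom.ker τ.toRingHom = ⊥ :=
      Ideal.eq_bot_of_comap_eq_bot (R := MvPolynomial (Fin d) K) (eq_bot_iff.mpr fun p hp => by
        have hp' : τ.comp gN p = 0 := hp
        rw [hτg] at hp'
        have h1 : ((gN p : M.ring c₀) : M.FA) = 0 := (map_eq_zero j₀.toRingHom).mp hp'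
        exact (Submodule.mem_bot _).mpr ((injective_iff_map_eq_zero gN).mp hgN p (Subtype.ext h1)))
    exact (Submodule.mem_bot _).mp (this ▸ (show r ∈ RingHom.ker τ.toRingHom from hr))
  let j₁ : M.FA →ₐ[K] Ω := IsFractionRing.liftAlgHom hτ
  have hj₁ : j₁.comp (M.ring c₀).val = τ := AlgHom.ext fun r => by
    rw [AlgHom.comp_apply, IsFractionRing.liftAlgHom_apply]
    exact IsFractionRing.lift_algebraMap (K := M.FA) (g := τ.toRingHom) hτ r
  refine ⟨j₁, Or.inr ?_⟩
  let i₀ : Fin d := ⟨0, hd⟩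
  have hne : β i₀ - e₂ (gΩ (MvPolynomial.X i₀)) ≠ 0 := fun h => by
    have h1 : gN (MvPolynomial.X i₀ - MvPolynomial.C (h₀ (gN (MvPolynomial.X i₀)))) = 0 := by
      apply Subtype.ext
      apply (show Function.Injective j₀ from j₀.toRingHom.injective)
      rw [map_sub, ← MvPolynomial.algebraMap_eq, AlgHom.commutes, Subalgebra.coe_sub,
        Subalgebra.coe_algebraMap, map_sub, AlgHom.commutes, ← sub_eq_zero]
      simpa [β, e₂, zeroΩ, hX] using h
    have h2 := congrArg (MvPolynomial.eval fun _ => h₀ (gN (MvPolynomial.X i₀)) + 1)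
      ((injective_iff_map_eq_zero gN).mp hgN _ h1)
    simp at h2
  let B := (Ω ⊗[K] M.ring c₀) ⧸ P
  let C := FractionRing B
  let iB : B →ₐ[Ω] C := IsScalarTower.toAlgHom Ω B C
  have hiB : Function.Injective iB := IsFractionRing.injective B C
  let π : Ω ⊗[K] M.ring c₀ →ₐ[Ω] C := iB.comp (Ideal.Quotient.mkₐ Ω P)
  have hπ : ∀ z, π z = 0 ↔ z ∈ P := fun z => by
    show iB _ = 0 ↔ _
    rw [map_eq_zero_iff _ hiB]
    exact Ideal.Quotient.eq_zero_iff_mem
  have : FermatAgent.Curve.IsFF Ω C := isFF_of_line π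
    (fun x => by
      obtain ⟨u, v, -, e⟩ := IsFractionRing.div_surjective (A := B) x
      obtain ⟨u', rfl⟩ := Ideal.Quotient.mk_surjective u
      obtain ⟨v', rfl⟩ := Ideal.Quotient.mk_surjective v
      exact ⟨u', v', e.symm⟩)
    gΩ hintΩ _ _ (fun p => (hπ _).trans (hPline p)) i₀ hne
  obtain ⟨c₁, hc₁, hc₁e⟩ := exists_spot_rational_hom iB hiB (Ideal.Quotient.liftₐ P e₁ hP₁)
  obtain ⟨c₂, hc₂, hc₂e⟩ := exists_spot_rational_hom iB hiB (Ideal.Quotient.liftₐ P e₂ hP₂)
  refine ⟨C, inferInstance, inferInstance, inferInstance, inferInstance, inferInstance,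
    M.pt c₀ ((π.restrictScalars K).comp Algebra.TensorProduct.includeRight), c₁, c₂, ?_, ?_⟩
  · rw [map_gen_eq_pt M c₀, hj₁]
    exact M.map_pt c₀ c₁.restrict _ τ (fun r => hc₁ _) fun r => hc₁e _
  · rw [← hzero]
    refine M.map_pt c₀ c₂.restrict _ zeroΩ (fun r => hc₂ _) fun r => (hc₂e _).trans ?_
    show e₂ (1 ⊗ₜ r) = zeroΩ r
    simp [e₂]

end Model

end FermatAgent.AV
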