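import Fermat.Agent.AV.Places

/-!
# Two independent generic points

The fraction field of `Ω ⊗ FA ⊗ FA` and its two generic points.
-/

set_option autoImplicit false

noncomputable section

universe u

open scoped TensorProduct

namespace FermatAgent.AV

variable {K : Type u} [Field K] [IsAlgClosed K] {g : ℕ} (M : Model K g)
variable (Ω : Type u) [Field Ω] [Algebra K Ω]

namespace Model

/-- The ring of two independent generic points over `Ω`. -/
abbrev GenRing : Type u := Ω ⊗[K] (M.FA ⊗[K] M.FA)

/-- The field of two independent generic points over `Ω`. -/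
abbrev GenField : Type u := FractionRing (M.GenRing Ω)

/-- The first generic point. -/
def genHom₂ : M.FA →ₐ[K] M.GenField Ω :=
  (IsScalarTower.toAlgHom K (M.GenRing Ω) (M.GenField Ω)).comp
    (Algebra.TensorProduct.includeRight.comp Algebra.TensorProduct.includeLeft)

/-- The second generic point. -/
def genHom₃ : M.FA →ₐ[K] M.GenField Ω :=
  (IsScalarTower.toAlgHom K (M.GenRing Ω) (M.GenField Ω)).comp
    (Algebra.TensorProduct.includeRight.comp Algebra.TensorProduct.includeRight)

omit [IsAlgClosed K] in
theorem genHom₂_apply (a : M.FA) : M.genHom₂ Ω a =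
    algebraMap (M.GenRing Ω) (M.GenField Ω) (1 ⊗ₜ (a ⊗ₜ 1)) := rfl

omit [IsAlgClosed K] in
theorem genHom₃_apply (a : M.FA) : M.genHom₃ Ω a =
    algebraMap (M.GenRing Ω) (M.GenField Ω) (1 ⊗ₜ (1 ⊗ₜ a)) := rfl

/-- The first generic point, as a point over the field of two. -/
abbrev gen₂ : M.Pts (M.GenField Ω) := M.map (Spot.ofHom (M.genHom₂ Ω)) M.gen

/-- The second generic point, as a point over the field of two. -/
abbrev gen₃ : M.Pts (M.GenField Ω) := M.map (Spot.ofHom (M.genHom₃ Ω)) M.gen

/-- A point over `Ω`, as a point over the field of two generic points. -/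
abbrev constPt (x : M.Pts Ω) : M.Pts (M.GenField Ω) :=
  M.map (Spot.ofHom (IsScalarTower.toAlgHom K Ω (M.GenField Ω))) x

end Model

end FermatAgent.AV
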