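import Fermat.Agent.AV.Connect
import Fermat.Agent.AV.GenField

/-!
# Cube classes

Formal properties of the cube class, and spots extending homomorphisms of three independent
subrings.
-/

set_option autoImplicit false

noncomputable section

universe u

open scoped TensorProduct

namespace FermatAgent.AV.Model

variable {K : Type u} [Field K] {g : ℕ} (M : Model K g)

theorem resPic_cube {F E : Type u} [Field F] [Algebra K F] [Field E] [Algebra K E]
    (r : Spot K F E) (P Q R : M.Pts F) :
    r.resPic (M.cube P Q R) = M.cube (M.map r P) (M.map r Q) (M.map r R) := by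
  simp only [Model.cube, map_mul, map_div, M.δ_map, map_add, map_zero]

theorem cube_zero_left {F : Type u} [Field F] [Algebra K F] (Q R : M.Pts F) :
    M.cube 0 Q R = 1 := by
  rw [Model.cube, zero_add, zero_add, div_eq_one]
  rw [mul_assoc (M.δ (Q + R) * M.δ 0), mul_assoc (M.δ Q * M.δ R)]
  exact mul_comm (M.δ (Q + R) * M.δ 0) _

theorem cube_zero_middle {F : Type u} [Field F] [Algebra K F] (P R : M.Pts F) :
    M.cube P 0 R = 1 := by
  rw [Model.cube, add_zero, zero_add, div_eq_one, mul_comm (M.δ (P + R)) (M.δ P),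
    mul_right_comm _ (M.δ 0) (M.δ R)]

theorem cube_zero_right {F : Type u} [Field F] [Algebra K F] (P Q : M.Pts F) :
    M.cube P Q 0 = 1 := by
  rw [Model.cube, add_zero, add_zero, add_zero, div_eq_one]

/-- A spot specialising the coordinates of a chart moves the generic point to that point. -/
theorem map_gen_eq_of_agree (c : M.Chart) {F E : Type u} [Field F] [Algebra K F] [Field E]
    [Algebra K E] (j : M.FA →ₐ[K] F) (r : Spot K F E) (h' : M.ring c →ₐ[K] E)
    (hm : ∀ a : M.ring c, ∃ h : j a ∈ r.V, r.ρ ⟨_, h⟩ = h' a) :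
    M.map r (M.map (Spot.ofHom j) M.gen) = M.pt c h' := by
  rw [map_gen_eq_pt M c]
  exact M.map_pt c r _ h' (fun a => (hm a).choose) fun a => (hm a).choose_spec

/-- A homomorphism of three independent subrings extends to a spot. -/
theorem exists_spot_triple {K : Type u} [Field K] {A B C L F : Type u} [CommRing A] [Algebra K A]
    [CommRing B] [Algebra K B] [CommRing C] [Algebra K C] [Field L] [Algebra K L] [Field F]
    [Algebra K F] (i : A ⊗[K] (B ⊗[K] C) →ₐ[K] L) (hi : Function.Injective i)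
    (pA : A →ₐ[K] F) (pB : B →ₐ[K] F) (pC : C →ₐ[K] F) :
    ∃ (E : Type u) (_ : Field E) (_ : Algebra K E) (ι : F →ₐ[K] E) (r : Spot K L E),
      ∃ hV : ∀ t, i t ∈ r.V, (∀ x, r.ρ ⟨i (x ⊗ₜ 1), hV _⟩ = ι (pA x)) ∧
        (∀ x, r.ρ ⟨i (1 ⊗ₜ (x ⊗ₜ 1)), hV _⟩ = ι (pB x)) ∧
        ∀ x, r.ρ ⟨i (1 ⊗ₜ (1 ⊗ₜ x)), hV _⟩ = ι (pC x) := by
  obtain ⟨E, iF, iA, ι, r, hV, hr⟩ := exists_spot i hi
    (Algebra.TensorProduct.lift pA (Algebra.TensorProduct.lift pB pC fun _ _ => Commute.all _ _)
      fun _ _ => Commute.all _ _)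
  exact ⟨E, iF, iA, ι, r, hV, fun x => (hr _).trans (by simp [Algebra.TensorProduct.one_def]),
    fun x => (hr _).trans (by simp), fun x => (hr _).trans (by simp)⟩

end FermatAgent.AV.Model
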