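import Fermat.Agent.AV.GenField

/-!
# Two independent generic points: the algebraic facts

If the two generic points are independent over the algebraically closed field `Ω`, then an element
algebraic over both of their fields is a constant, and the places reducing one of them to zero bound
only the elements algebraic over its field.
-/

set_option autoImplicit false

noncomputable section

universe u

open scoped TensorProduct

namespace FermatAgent.AV

variable {K : Type u} [Field K] [IsAlgClosed K]
variable {Ω : Type u} [Field Ω] [Algebra K Ω]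
variable {L : Type u} [Field L] [Algebra K L] [Algebra Ω L] [IsScalarTower K Ω L]

/-- The map of a tensor product with `Ω` into a field over `Ω`. -/
def baseLift {B : Type u} [CommRing B] [Algebra K B] (j : B →ₐ[K] L) : Ω ⊗[K] B →ₐ[Ω] L :=
  Algebra.TensorProduct.lift (Algebra.ofId Ω L) j fun _ _ => Commute.all _ _

section

omit [IsAlgClosed K]

theorem baseLift_tmul {B : Type u} [CommRing B] [Algebra K B] (j : B →ₐ[K] L) (ω : Ω) (b : B) :
    baseLift j (ω ⊗ₜ[K] b) = algebraMap Ω L ω * j b :=
  Algebra.TensorProduct.lift_tmul _ _ _ _ _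

theorem adjoin_range_le_baseLift {B : Type u} [CommRing B] [Algebra K B] (j : B →ₐ[K] L) :
    Algebra.adjoin Ω (Set.range j) ≤ (baseLift (Ω := Ω) j).range :=
  Algebra.adjoin_le fun _ ⟨b, hb⟩ =>
    ⟨1 ⊗ₜ b, by rw [AlgHom.toRingHom_eq_coe, RingHom.coe_coe, baseLift_tmul, map_one, one_mul, hb]⟩

omit [Algebra K Ω] [IsScalarTower K Ω L] in
theorem adjoin_range_eq_adjoin_ring {FA : Type u} [Field FA] [Algebra K FA] (R : Subalgebra K FA)
    (hR : IntermediateField.adjoin K (R : Set FA) = ⊤) (j : FA →ₐ[K] L) :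
    IntermediateField.adjoin Ω (Set.range j) =
      IntermediateField.adjoin Ω (Set.range (j.comp R.val)) := by
  refine le_antisymm (IntermediateField.adjoin_le_iff.mpr ?_)
    (IntermediateField.adjoin.mono _ _ _ fun _ ⟨a, ha⟩ => ⟨a.1, ha⟩)
  rintro _ ⟨a, rfl⟩
  have ha : a ∈ IntermediateField.adjoin K (R : Set FA) := hR ▸ IntermediateField.mem_top
  obtain ⟨r, hr, t, ht, rfl⟩ := IntermediateField.mem_adjoin_iff_div.mp ha
  rw [Algebra.adjoin_eq] at hr ht
  rw [map_div₀]
  exact div_mem (IntermediateField.subset_adjoin _ _ ⟨⟨r, hr⟩, rfl⟩)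
    (IntermediateField.subset_adjoin _ _ ⟨⟨t, ht⟩, rfl⟩)

end

/-! ### Specialising the second of two independent points -/

section Pair

omit [IsAlgClosed K]

variable {B R : Type u} [CommRing B] [Algebra K B] [CommRing R] [Algebra K R]

/-- The map of `Ω ⊗ (B ⊗ R)` given by two points. -/
private def pairLift (j : B →ₐ[K] L) (k : R →ₐ[K] L) : Ω ⊗[K] (B ⊗[K] R) →ₐ[K] L :=
  Algebra.TensorProduct.lift (IsScalarTower.toAlgHom K Ω L)
    (Algebra.TensorProduct.productMap j k) fun _ _ => Commute.all _ _

/-- On the first factor `pairLift` is the first point. -/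
private lemma pairLift_includeLeft (j : B →ₐ[K] L) (k : R →ₐ[K] L) (a : Ω ⊗[K] B) :
    pairLift j k (Algebra.TensorProduct.map (AlgHom.id K Ω) Algebra.TensorProduct.includeLeft a) =
      baseLift j a := by
  induction a using TensorProduct.induction_on with
  | zero => simp only [map_zero]
  | tmul ω x => simp [pairLift, baseLift_tmul]
  | add x y hx hy => simp only [map_add, hx, hy]

/-- On the second factor `pairLift` is the second point. -/
private lemma pairLift_includeRight (j : B →ₐ[K] L) (k : R →ₐ[K] L) (b : Ω ⊗[K] R) :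
    pairLift j k (Algebra.TensorProduct.map (AlgHom.id K Ω) Algebra.TensorProduct.includeRight b) =
      baseLift k b := by
  induction b using TensorProduct.induction_on with
  | zero => simp only [map_zero]
  | tmul ω x => simp [pairLift, baseLift_tmul]
  | add x y hx hy => simp only [map_add, hx, hy]

/-- Evaluation at a rational point. -/
private def evalPt (h : R →ₐ[K] K) : Ω ⊗[K] R →ₐ[K] Ω :=
  (Algebra.TensorProduct.lift ((Algebra.ofId K Ω).comp h)
    (AlgHom.id K Ω) fun _ _ => Commute.all _ _).comp (Algebra.TensorProduct.comm K Ω R).toAlgHom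

/-- Specialisation of the second factor at a rational point. -/
private def specPt (h : R →ₐ[K] K) : Ω ⊗[K] (B ⊗[K] R) →ₐ[K] Ω ⊗[K] B :=
  Algebra.TensorProduct.lift Algebra.TensorProduct.includeLeft
    (Algebra.TensorProduct.productMap Algebra.TensorProduct.includeRight
      ((Algebra.ofId K _).comp h)) fun _ _ => Commute.all _ _

/-- Specialisation does nothing to the first factor. -/
private lemma specPt_includeLeft (h : R →ₐ[K] K) (a : Ω ⊗[K] B) :
    specPt h (Algebra.TensorProduct.map (AlgHom.id K Ω) Algebra.TensorProduct.includeLeft a) =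
      a := by
  induction a using TensorProduct.induction_on with
  | zero => simp only [map_zero]
  | tmul ω x => simp [specPt]
  | add x y hx hy => simp only [map_add, hx, hy]

/-- Specialisation evaluates the second factor. -/
private lemma specPt_includeRight (h : R →ₐ[K] K) (b : Ω ⊗[K] R) :
    specPt h (Algebra.TensorProduct.map (AlgHom.id K Ω) Algebra.TensorProduct.includeRight b) =
      evalPt h b ⊗ₜ[K] (1 : B) := by
  induction b using TensorProduct.induction_on with
  | zero => simp only [map_zero, TensorProduct.zero_tmul]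
  | tmul ω x =>
    simp only [specPt, evalPt, Algebra.TensorProduct.map_tmul, AlgHom.id_apply,
      Algebra.TensorProduct.includeRight_apply, Algebra.TensorProduct.lift_tmul,
      Algebra.TensorProduct.productMap_apply_tmul, map_one, one_mul, AlgHom.comp_apply,
      Algebra.ofId_apply, Algebra.TensorProduct.includeLeft_apply,
      Algebra.TensorProduct.algebraMap_apply, Algebra.TensorProduct.tmul_mul_tmul, mul_one]
    exact congrArg (· ⊗ₜ[K] (1 : B)) (mul_comm _ _)
  | add x y hx hy => simp only [map_add, hx, hy, TensorProduct.add_tmul]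

/-- An element algebraic over the field of a point satisfies an equation over `Ω ⊗ R`. -/
private lemma exists_lifted_equation (k : R →ₐ[K] L) {s : L}
    (hs : IsAlgebraic (IntermediateField.adjoin Ω (Set.range k)) s) :
    ∃ Q : Polynomial (Ω ⊗[K] R), Q ≠ 0 ∧
      Q.eval₂ (baseLift (Ω := Ω) k : Ω ⊗[K] R →+* L) s = 0 := by
  rw [IntermediateField.isAlgebraic_adjoin_iff] at hs
  obtain ⟨P, hP0, hP⟩ := hs
  obtain ⟨Q, hQ⟩ : P.map (algebraMap _ L) ∈
      Polynomial.lifts (baseLift (Ω := Ω) k : Ω ⊗[K] R →+* L) := by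
    rw [Polynomial.lifts_iff_coeff_lifts]
    intro n
    rw [Polynomial.coeff_map]
    exact adjoin_range_le_baseLift _ (P.coeff n).2
  rw [Polynomial.coe_mapRingHom] at hQ
  refine ⟨Q, ?_, ?_⟩
  · rintro rfl
    rw [Polynomial.map_zero] at hQ
    exact hP0 ((Polynomial.map_eq_zero_iff Subtype.val_injective).mp hQ.symm)
  · rw [← Polynomial.eval_map, hQ, Polynomial.eval_map]
    exact hP

variable {j : B →ₐ[K] L} {k : R →ₐ[K] L} {h : R →ₐ[K] K} {E : Type u} [Field E] [Algebra K E]
  {ι : L →ₐ[K] E} {r : Spot K L E} (hV : ∀ x : Ω ⊗[K] (B ⊗[K] R), pairLift j k x ∈ r.V)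
  (hρ : ∀ x, r.ρ ⟨pairLift j k x, hV x⟩ = ι (baseLift j (specPt h x)))

include hV hρ in
/-- The field of the first point lies in the valuation ring of the specialisation. -/
private lemma adjoin_le_of_spot (hj : Function.Injective (baseLift (Ω := Ω) j)) {x : L}
    (hx : x ∈ IntermediateField.adjoin Ω (Set.range j)) : x ∈ r.V := by
  obtain ⟨p, hp, q, hq, rfl⟩ := IntermediateField.mem_adjoin_iff_div.mp hx
  obtain ⟨p', rfl⟩ := adjoin_range_le_baseLift j hp
  obtain ⟨q', rfl⟩ := adjoin_range_le_baseLift j hq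
  change baseLift j p' / baseLift j q' ∈ r.V
  rcases eq_or_ne q' 0 with rfl | hq'
  · rw [map_zero, div_zero]
    exact r.V.zero_mem
  rw [← pairLift_includeLeft j k p', ← pairLift_includeLeft j k q']
  set tq := Algebra.TensorProduct.map (AlgHom.id K Ω)
    (Algebra.TensorProduct.includeLeft : B →ₐ[K] B ⊗[K] R) q'
  have hu : IsUnit (⟨pairLift j k tq, hV tq⟩ : r.V) := by
    by_contra hnu
    have h0 := (r.ker_iff _).mpr hnu
    rw [hρ, map_eq_zero, specPt_includeLeft, map_eq_zero_iff _ hj] at h0
    exact hq' h0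
  obtain ⟨w, hw⟩ := hu.exists_right_inv
  rw [div_eq_mul_inv, show (pairLift j k tq)⁻¹ = (w : L) from
    (eq_inv_of_mul_eq_one_right (congrArg Subtype.val hw)).symm]
  exact r.V.mul_mem _ _ (hV _) w.2

include hV hρ in
/-- The specialisation fixes the constants `Ω`. -/
private lemma rho_const (ω : Ω) (hω : algebraMap Ω L ω ∈ r.V) :
    r.ρ ⟨algebraMap Ω L ω, hω⟩ = ι (algebraMap Ω L ω) := by
  refine Eq.trans (congrArg r.ρ (Subtype.ext ?_)) ((hρ (Algebra.TensorProduct.map (AlgHom.id K Ω)
    Algebra.TensorProduct.includeLeft ((ω ⊗ₜ (1 : B)) : Ω ⊗[K] B))).trans ?_)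
  · show algebraMap Ω L ω = pairLift j k _
    rw [pairLift_includeLeft, baseLift_tmul, map_one, mul_one]
  · rw [specPt_includeLeft, baseLift_tmul, map_one, mul_one]

include hρ in
/-- A root of an equation over `Ω ⊗ R` reduces to a root of the evaluated equation, a constant. -/
private lemma rho_eq_const [IsAlgClosed Ω] {Q : Polynomial (Ω ⊗[K] R)}
    (hQh : evalPt h Q.leadingCoeff ≠ 0) {s : L} (hsV : s ∈ r.V)
    (hQs : Q.eval₂ (baseLift (Ω := Ω) k : Ω ⊗[K] R →+* L) s = 0) :
    ∃ ω : Ω, r.ρ ⟨s, hsV⟩ = ι (algebraMap Ω L ω) := by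
  let : Algebra Ω E := ((ι : L →+* E).comp (algebraMap Ω L)).toAlgebra
  set e₃ : Ω ⊗[K] R →+* Ω := (evalPt (Ω := Ω) h).toRingHom
  have hμV : ∀ b : Ω ⊗[K] R, baseLift k b ∈ r.V := fun b => pairLift_includeRight j k b ▸ hV _
  have hQV : Q.eval₂ ((baseLift (Ω := Ω) k : Ω ⊗[K] R →+* L).codRestrict r.V.toSubring hμV)
      ⟨s, hsV⟩ = 0 := Subtype.ext (by
    show r.V.subtype _ = r.V.subtype 0
    rw [Polynomial.hom_eval₂, map_zero]
    exact hQs)
  have h1 := congrArg r.ρ hQV
  rw [Polynomial.hom_eval₂, map_zero] at h1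
  have hroot : (Q.map e₃).eval₂ (algebraMap Ω E) (r.ρ ⟨s, hsV⟩) = 0 := by
    rw [Polynomial.eval₂_map]
    refine Eq.trans ?_ h1
    congr 1
    refine RingHom.ext fun b => ?_
    show ι (algebraMap Ω L (evalPt h b)) = r.ρ ⟨baseLift k b, _⟩
    have h2 : baseLift j (specPt h (Algebra.TensorProduct.map (AlgHom.id K Ω)
        Algebra.TensorProduct.includeRight b)) = algebraMap Ω L (evalPt h b) := by
      rw [specPt_includeRight, baseLift_tmul, map_one, mul_one]
    rw [← h2]
    exact (hρ _).symm.trans (congrArg r.ρ (Subtype.ext (pairLift_includeRight j k b)))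
  have hQ0 : Q.map e₃ ≠ 0 := fun h0 => hQh (by
    have := congrArg (fun q => Polynomial.coeff q Q.natDegree) h0
    simpa [e₃, Polynomial.coeff_map, Polynomial.coeff_natDegree] using this)
  have halg : IsIntegral Ω (r.ρ ⟨s, hsV⟩) := isAlgebraic_iff_isIntegral.mp ⟨_, hQ0, hroot⟩
  obtain ⟨ω, hω⟩ := minpoly.mem_range_of_degree_eq_one Ω (r.ρ ⟨s, hsV⟩)
    (IsAlgClosed.degree_eq_one_of_irreducible Ω (minpoly.irreducible halg))
  exact ⟨ω, hω.symm⟩

omit [Algebra K Ω] [IsScalarTower K Ω L] in
/-- An element integral over a subfield of a valuation ring lies in the ring. -/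
private lemma mem_of_isIntegral_field {F : IntermediateField Ω L} (hF : ∀ x ∈ F, x ∈ r.V) {s : L}
    (hs : IsIntegral F s) : s ∈ r.V := by
  obtain ⟨P, hP, hPs⟩ := hs
  let f : F →+* r.V := F.val.toRingHom.codRestrict r.V.toSubring fun x => hF x.1 x.2
  have hint : IsIntegral r.V s := ⟨P.map f, hP.map f, by
    rw [Polynomial.eval₂_map]
    exact hPs⟩
  obtain ⟨v, hv⟩ := IsIntegrallyClosed.isIntegral_iff.mp hint
  exact hv ▸ v.2

omit [Algebra K Ω] [IsScalarTower K Ω L] in
/-- An element integral over a subfield of a valuation ring with zero reduction is zero. -/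
private lemma eq_zero_of_rho_eq_zero {F : IntermediateField Ω L} (hF : ∀ x ∈ F, x ∈ r.V) {x : L}
    (hx : IsIntegral F x) (hxV : x ∈ r.V) (hxρ : r.ρ ⟨x, hxV⟩ = 0) : x = 0 := by
  let f : F →+* r.V := F.val.toRingHom.codRestrict r.V.toSubring fun y => hF y.1 y.2
  have hpV : (minpoly F x).eval₂ f ⟨x, hxV⟩ = 0 := Subtype.ext (by
    show r.V.subtype _ = r.V.subtype 0
    rw [Polynomial.hom_eval₂, map_zero]
    exact minpoly.aeval _ x)
  have h1 := congrArg r.ρ hpV
  rw [Polynomial.hom_eval₂, map_zero, hxρ, Polynomial.eval₂_at_zero, map_eq_zero] at h1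
  exact (minpoly.coeff_zero_eq_zero hx).mp h1

end Pair

namespace Model

variable {g : ℕ} (M : Model K g)

section

omit [IsAlgClosed K]

theorem baseLift_injective_comp (j₂ j₃ : M.FA →ₐ[K] L)
    (hind : Function.Injective (Algebra.TensorProduct.lift (IsScalarTower.toAlgHom K Ω L)
      (Algebra.TensorProduct.productMap j₂ j₃) (fun _ _ => Commute.all _ _) :
        Ω ⊗[K] (M.FA ⊗[K] M.FA) → L))
    (i : M.FA →ₐ[K] M.FA ⊗[K] M.FA) (hi : Function.Injective i) :
    Function.Injective (baseLift (Ω := Ω) ((Algebra.TensorProduct.productMap j₂ j₃).comp i)) := by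
  intro a b hab
  refine Module.Flat.lTensor_preserves_injective_linearMap (M := Ω) i.toLinearMap hi (hind ?_)
  have key : ∀ x : Ω ⊗[K] M.FA, Algebra.TensorProduct.lift (IsScalarTower.toAlgHom K Ω L)
      (Algebra.TensorProduct.productMap j₂ j₃) (fun _ _ => Commute.all _ _)
      (i.toLinearMap.lTensor Ω x) =
        baseLift ((Algebra.TensorProduct.productMap j₂ j₃).comp i) x := fun x => by
    induction x using TensorProduct.induction_on with
    | zero => simp only [map_zero]
    | tmul ω y => simp [baseLift_tmul]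
    | add x y hx hy => simp only [map_add, hx, hy]
  rw [key, key, hab]

theorem baseLift_injective_left (j₂ j₃ : M.FA →ₐ[K] L)
    (hind : Function.Injective (Algebra.TensorProduct.lift (IsScalarTower.toAlgHom K Ω L)
      (Algebra.TensorProduct.productMap j₂ j₃) (fun _ _ => Commute.all _ _) :
        Ω ⊗[K] (M.FA ⊗[K] M.FA) → L)) :
    Function.Injective (baseLift (Ω := Ω) j₂) := by
  simpa using M.baseLift_injective_comp j₂ j₃ hind Algebra.TensorProduct.includeLeft
    (Algebra.TensorProduct.includeLeft_injective (S := K) (algebraMap K M.FA).injective)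

end

/-- **The fields of two independent points meet in the constants.** -/
theorem inter_of_independent [IsAlgClosed Ω] (j₂ j₃ : M.FA →ₐ[K] L)
    (hind : Function.Injective (Algebra.TensorProduct.lift (IsScalarTower.toAlgHom K Ω L)
      (Algebra.TensorProduct.productMap j₂ j₃) (fun _ _ => Commute.all _ _) :
        Ω ⊗[K] (M.FA ⊗[K] M.FA) → L))
    (s : L) (h₂ : IsAlgebraic (IntermediateField.adjoin Ω (Set.range j₂)) s)
    (h₃ : IsAlgebraic (IntermediateField.adjoin Ω (Set.range j₃)) s) : IsAlgebraic Ω s := by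
  classical
  obtain ⟨c, -, -⟩ := M.exists_chart M.gen
  have : Algebra.FiniteType K (M.ring c) := (M.ring c).fg_iff_finiteType.mp (M.ring_fg c)
  set R := M.ring c
  -- two points, the second with coordinates in `R`
  let emb : Ω ⊗[K] (M.FA ⊗[K] R) →ₐ[K] Ω ⊗[K] (M.FA ⊗[K] M.FA) :=
    Algebra.TensorProduct.map (AlgHom.id K Ω) (Algebra.TensorProduct.map (AlgHom.id K M.FA) R.val)
  have hemb : Function.Injective emb :=
    Module.Flat.lTensor_preserves_injective_linearMap (M := Ω)
      (Algebra.TensorProduct.map (AlgHom.id K M.FA) R.val).toLinearMap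
      (Module.Flat.lTensor_preserves_injective_linearMap (M := M.FA) R.val.toLinearMap
        Subtype.val_injective)
  have hμ : Function.Injective (pairLift (Ω := Ω) j₂ (j₃.comp R.val)) := by
    rw [show pairLift (Ω := Ω) j₂ (j₃.comp R.val) = (Algebra.TensorProduct.lift
      (IsScalarTower.toAlgHom K Ω L) (Algebra.TensorProduct.productMap j₂ j₃)
        fun _ _ => Commute.all _ _).comp emb by ext <;> simp [pairLift, emb]]
    exact hind.comp hemb
  -- an equation for `s` over `Ω ⊗ R`, and a rational point at which its degree survives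
  rw [adjoin_range_eq_adjoin_ring R (M.ring_frac c) j₃] at h₃
  obtain ⟨Q, hQ0, hQs⟩ := exists_lifted_equation _ h₃
  obtain ⟨h, hh⟩ := exists_algHom_tensor_ne_zero (K := K) (R := R) (S := Ω)
    (s := {Algebra.TensorProduct.comm K Ω R Q.leadingCoeff}) (fun x hx => by
      rw [Finset.mem_singleton] at hx
      rw [hx, map_ne_zero_iff _ (AlgEquiv.injective _)]
      exact Polynomial.leadingCoeff_ne_zero.mpr hQ0)
  -- specialise the second point there
  obtain ⟨E, _, _, ι, r, hV, hρ⟩ := exists_spot (K := K) (F := L) (G := L)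
    (pairLift (Ω := Ω) j₂ (j₃.comp R.val)) hμ
    (((baseLift j₂).restrictScalars K).comp (specPt h))
  have hsub : ∀ x ∈ IntermediateField.adjoin Ω (Set.range j₂), x ∈ r.V := fun x hx =>
    adjoin_le_of_spot hV hρ (M.baseLift_injective_left j₂ j₃ hind) hx
  have hint := isAlgebraic_iff_isIntegral.mp h₂
  have hsV : s ∈ r.V := mem_of_isIntegral_field hsub hint
  obtain ⟨ω, hω⟩ := rho_eq_const hV hρ (hh _ (Finset.mem_singleton_self _)) hsV hQs
  -- so `s` is that constant
  have hωV : algebraMap Ω L ω ∈ r.V := hsub _ (IntermediateField.algebraMap_mem _ ω)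
  have hs : s - algebraMap Ω L ω = 0 := eq_zero_of_rho_eq_zero hsub
    (hint.sub (isIntegral_algebraMap (x := algebraMap Ω
      (IntermediateField.adjoin Ω (Set.range j₂)) ω))) (sub_mem hsV hωV) (by
      rw [show (⟨_, sub_mem hsV hωV⟩ : r.V) = ⟨s, hsV⟩ - ⟨_, hωV⟩ from rfl, map_sub, hω,
        rho_const hV hρ ω hωV, sub_self])
  rw [sub_eq_zero] at hs
  exact hs ▸ isAlgebraic_algebraMap ω

section

omit [IsAlgClosed K]

/-- A rational place, under a given one over the field of a point, reducing the point to zero. -/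
theorem exists_spot_zero [IsAlgClosed Ω] (j : M.FA →ₐ[K] L)
    (hj : Function.Injective (baseLift (Ω := Ω) j)) (W : KVal Ω L)
    (hW : ∀ x ∈ IntermediateField.adjoin Ω (Set.range j), x ∈ W.1) :
    ∃ r : Spot Ω L Ω, r.V ≤ W.1 ∧ M.map r.restrict (M.map (Spot.ofHom j) M.gen) = 0 := by
  set F := IntermediateField.adjoin Ω (Set.range j)
  obtain ⟨c, h₀, hc⟩ := M.exists_chart (0 : M.Pts K)
  let μ : Ω ⊗[K] M.ring c →ₐ[Ω] L := baseLift (j.comp (M.ring c).val)
  have hμ : ∀ t, μ t =
      baseLift j (Algebra.TensorProduct.map (AlgHom.id Ω Ω) (M.ring c).val t) := fun t => by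
    induction t using TensorProduct.induction_on with
    | zero => simp only [map_zero]
    | tmul ω x => simp [μ, baseLift_tmul]
    | add x y hx hy => simp only [map_add, hx, hy]
  have hμi : Function.Injective μ := fun a b hab => by
    rw [hμ, hμ] at hab
    exact Module.Flat.lTensor_preserves_injective_linearMap (M := Ω) (M.ring c).val.toLinearMap
      Subtype.val_injective (hj hab)
  have hμF : ∀ a ∈ μ.range, a ∈ F := by
    rintro _ ⟨t, rfl⟩
    induction t using TensorProduct.induction_on with
    | zero => simp [zero_mem]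
    | tmul ω x =>
      simpa [μ, baseLift_tmul] using mul_mem (F.algebraMap_mem ω)
        (IntermediateField.subset_adjoin Ω (Set.range j) ⟨(x : M.FA), rfl⟩)
    | add x y hx hy =>
      simp only [AlgHom.toRingHom_eq_coe, RingHom.coe_coe, map_add] at hx hy ⊢
      exact add_mem hx hy
  let e : μ.range →ₐ[Ω] Ω :=
    (Algebra.TensorProduct.lift (AlgHom.id Ω Ω) ((Algebra.ofId K Ω).comp h₀)
      fun _ _ => Commute.all _ _).comp (AlgEquiv.ofInjective μ hμi).symm.toAlgHom
  obtain ⟨r, hrW, hr⟩ := exists_spot_le (A := μ.range) W (fun a ha => hW a (hμF a ha)) e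
    fun a _ => hW _ (inv_mem (hμF _ a.2))
  refine ⟨r, hrW, ?_⟩
  have hzero : M.pt c ((Algebra.ofId K Ω).comp h₀) = 0 := by
    rw [← map_ofHom_pt, hc, map_zero]
  have hval : ∀ a : M.ring c, ∃ h : j (a : M.FA) ∈ r.V, r.ρ ⟨_, h⟩ = algebraMap K Ω (h₀ a) :=
    fun a => by
      obtain ⟨h, he⟩ := hr (AlgEquiv.ofInjective μ hμi (1 ⊗ₜ a))
      have e1 : ((AlgEquiv.ofInjective μ hμi (1 ⊗ₜ a) : μ.range) : L) = j (a : M.FA) := by
        show μ (1 ⊗ₜ a) = _
        simp [μ, baseLift_tmul]
      refine ⟨e1 ▸ h, ?_⟩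
      rw [show (⟨j (a : M.FA), e1 ▸ h⟩ : r.V) = ⟨_, h⟩ from Subtype.ext e1.symm, he]
      simp [e]
  rw [map_gen_eq_pt M c, ← hzero]
  exact M.map_pt c r.restrict _ _ (fun a => (hval a).choose) fun a => (hval a).choose_spec

/-- An element in all rational places at which a point reduces to zero is algebraic over its
field. -/
theorem isAlgebraic_of_zero [IsAlgClosed Ω] (j : M.FA →ₐ[K] L)
    (hj : Function.Injective (baseLift (Ω := Ω) j)) (s : L)
    (h : ∀ r : Spot Ω L Ω, M.map r.restrict (M.map (Spot.ofHom j) M.gen) = 0 → s ∈ r.V) :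
    IsAlgebraic (IntermediateField.adjoin Ω (Set.range j)) s := by
  refine isAlgebraic_iff_isIntegral.mpr 
    (FermatAgent.Curve.isIntegralElem_of_forall_valuationSubring _ fun V hV => ?_)
  have hFV : ∀ x ∈ IntermediateField.adjoin Ω (Set.range j), x ∈ V := fun x hx => hV ⟨x, hx⟩
  obtain ⟨r, hle, hr⟩ := M.exists_spot_zero j hj
    ⟨V, fun ω => hFV _ (IntermediateField.algebraMap_mem _ ω)⟩ hFV
  exact hle (h r hr)

theorem baseLift_injective_right (j₂ j₃ : M.FA →ₐ[K] L)
    (hind : Function.Injective (Algebra.TensorProduct.lift (IsScalarTower.toAlgHom K Ω L)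
      (Algebra.TensorProduct.productMap j₂ j₃) (fun _ _ => Commute.all _ _) :
        Ω ⊗[K] (M.FA ⊗[K] M.FA) → L)) :
    Function.Injective (baseLift (Ω := Ω) j₃) := by
  simpa using M.baseLift_injective_comp j₂ j₃ hind Algebra.TensorProduct.includeRight
    (Algebra.TensorProduct.includeRight_injective (algebraMap K M.FA).injective)

end

variable (Ω)

section

omit [IsAlgClosed K]

theorem genField_lift_eq (x : M.GenRing Ω) :
    Algebra.TensorProduct.lift (IsScalarTower.toAlgHom K Ω (M.GenField Ω))
      (Algebra.TensorProduct.productMap (M.genHom₂ Ω) (M.genHom₃ Ω))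
      (fun _ _ => Commute.all _ _) x = algebraMap (M.GenRing Ω) (M.GenField Ω) x := by
  induction x using TensorProduct.induction_on with
  | zero => simp only [map_zero]
  | tmul ω y =>
    induction y using TensorProduct.induction_on with
    | zero => simp only [TensorProduct.tmul_zero, map_zero]
    | tmul a b =>
      rw [Algebra.TensorProduct.lift_tmul, Algebra.TensorProduct.productMap_apply_tmul,
        genHom₂_apply, genHom₃_apply, IsScalarTower.coe_toAlgHom',
        IsScalarTower.algebraMap_apply Ω (M.GenRing Ω) (M.GenField Ω), ← map_mul, ← map_mul]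
      simp [Algebra.TensorProduct.algebraMap_apply, Algebra.TensorProduct.tmul_mul_tmul]
    | add a b ha hb => simp only [TensorProduct.tmul_add, map_add, ha, hb]
  | add a b ha hb => simp only [map_add, ha, hb]

/-- The two generic points are independent over `Ω`. -/
theorem genField_independent :
    Function.Injective (Algebra.TensorProduct.lift (IsScalarTower.toAlgHom K Ω (M.GenField Ω))
      (Algebra.TensorProduct.productMap (M.genHom₂ Ω) (M.genHom₃ Ω))
      (fun _ _ => Commute.all _ _) : M.GenRing Ω → M.GenField Ω) := fun a b hab => by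
  rw [genField_lift_eq, genField_lift_eq] at hab
  exact IsFractionRing.injective _ _ hab

end

variable [IsAlgClosed Ω]

/-- The fields of the two generic points meet in the constants. -/
theorem genField_inter (s : M.GenField Ω)
    (h₂ : IsAlgebraic (IntermediateField.adjoin Ω (Set.range (M.genHom₂ Ω))) s)
    (h₃ : IsAlgebraic (IntermediateField.adjoin Ω (Set.range (M.genHom₃ Ω))) s) :
    IsAlgebraic Ω s :=
  M.inter_of_independent _ _ (M.genField_independent Ω) s h₂ h₃

/-- The places reducing a generic point to zero bound only elements algebraic over its field. -/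
theorem genField_zero :
    ∀ j ∈ ({M.genHom₂ Ω, M.genHom₃ Ω} : Set (M.FA →ₐ[K] M.GenField Ω)), ∀ s : M.GenField Ω,
      (∀ r : Spot Ω (M.GenField Ω) Ω, M.map r.restrict (M.map (Spot.ofHom j) M.gen) = 0 →
        s ∈ r.V) →
        IsAlgebraic (IntermediateField.adjoin Ω (Set.range j)) s := by
  rintro j (rfl | rfl) s hs
  · exact M.isAlgebraic_of_zero _
      (M.baseLift_injective_left _ _ (M.genField_independent Ω)) s hs
  · exact M.isAlgebraic_of_zero _
      (M.baseLift_injective_right _ _ (M.genField_independent Ω)) s hs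

end Model

end FermatAgent.AV
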