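import Mathlib
import Fermat.Agent.GaloisBasic.ValuationRing

/-!
# Divisors on fields and abstract abelian varieties

A divisor on a field `F` over `K` chooses, compatibly, an element modulo units for each valuation
subring of `F` containing `K`.  Spots (valuation subrings with a map of residue fields) act on
divisors and on points.  `Model` records what is needed from an abelian variety.
-/

set_option autoImplicit false

noncomputable section

universe u

namespace FermatAgent.AV

variable {K : Type u} [Field K]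

section Val

variable {F : Type u} [Field F] [Algebra K F]

variable (K) in
/-- The valuation subring contains the constants. -/
def IsOver (V : ValuationSubring F) : Prop := ∀ a : K, algebraMap K F a ∈ V

variable (K F) in
/-- The valuation subrings over `K`. -/
abbrev KVal : Type u := {V : ValuationSubring F // IsOver K V}

/-- The trivial valuation. -/
def topVal : KVal K F := ⟨⊤, fun _ => ValuationSubring.mem_top _⟩

variable (K F) in
/-- Compatible families of elements up to units. -/
def vDiv : Subgroup (KVal K F → Fˣ) where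
  carrier := {d | ∀ V V' : KVal K F, V.1 ≤ V'.1 → d V / d V' ∈ V'.1.unitGroup}
  one_mem' _ V' _ := by simp
  mul_mem' {a b} ha hb V V' h := by
    rw [Pi.mul_apply, Pi.mul_apply, mul_div_mul_comm]
    exact mul_mem (ha V V' h) (hb V V' h)
  inv_mem' {a} ha V V' h := by
    rw [Pi.inv_apply, Pi.inv_apply, div_eq_mul_inv, ← mul_inv, ← div_eq_mul_inv]
    exact inv_mem (ha V V' h)

/-- The divisor is that of one element. -/
def IsPrin (d : vDiv K F) : Prop :=
  ∃ h : Fˣ, ∀ V : KVal K F, d.1 V / h ∈ V.1.unitGroup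

variable (K F) in
/-- The principal divisors. -/
def prinDiv : Subgroup (vDiv K F) where
  carrier := {d | IsPrin d}
  one_mem' := ⟨1, fun V => by simp⟩
  mul_mem' := by
    rintro a b ⟨x, hx⟩ ⟨y, hy⟩
    exact ⟨x * y, fun V => by
      rw [Subgroup.coe_mul, Pi.mul_apply, mul_div_mul_comm]; exact mul_mem (hx V) (hy V)⟩
  inv_mem' := by
    rintro a ⟨x, hx⟩
    exact ⟨x⁻¹, fun V => by
      rw [Subgroup.coe_inv, Pi.inv_apply, div_eq_mul_inv, ← mul_inv, ← div_eq_mul_inv]
      exact inv_mem (hx V)⟩

variable (K F) in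
/-- Divisors modulo principal ones. -/
abbrev VPic : Type u := vDiv K F ⧸ prinDiv K F

/-- The class of a divisor. -/
abbrev cls (d : vDiv K F) : VPic K F := QuotientGroup.mk d

theorem cls_eq_one_iff (d : vDiv K F) : cls d = 1 ↔ IsPrin d := QuotientGroup.eq_one_iff d

/-- Some positive multiple of the class is trivial. -/
def IsTors {G : Type*} [CommGroup G] (x : G) : Prop := ∃ m : ℕ, 0 < m ∧ x ^ m = 1

/-- The functions `f` with `f d_V` integral everywhere. -/
def vL (d : vDiv K F) : Submodule K F where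
  carrier := {f | ∀ V : KVal K F, f * (d.1 V : F) ∈ V.1}
  zero_mem' V := by rw [zero_mul]; exact V.1.zero_mem
  add_mem' ha hb V := by rw [add_mul]; exact V.1.add_mem _ _ (ha V) (hb V)
  smul_mem' c f hf V := by
    rw [Algebra.smul_def, mul_assoc]; exact V.1.mul_mem _ _ (V.2 c) (hf V)

theorem mem_vL {d : vDiv K F} {f : F} : f ∈ vL d ↔ ∀ V : KVal K F, f * (d.1 V : F) ∈ V.1 :=
  Iff.rfl

/-- An effective divisor whose poles are bounded by those of finitely many functions, and whose
functions generate the field. -/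
structure IsBig (d : vDiv K F) : Prop where
  effective : ∀ V : KVal K F, (d.1 V : F) ∈ V.1
  bounded : ∃ Z : Finset Fˣ, ∀ V : KVal K F, ∃ z ∈ Z, z * d.1 V ∈ V.1.unitGroup
  gens : ∃ y : Finset F, IntermediateField.adjoin K (y : Set F) = ⊤ ∧ ∀ a ∈ y, a ∈ vL d

end Val

/-! ### Spots -/

variable (K) in
/-- A valuation subring of `F` over `K` with a map of its residue field to `E`. -/
structure Spot (F E : Type u) [Field F] [Algebra K F] [Field E] [Algebra K E] where
  /-- The valuation subring. -/
  V : ValuationSubring F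
  isOver : IsOver K V
  /-- The reduction. -/
  ρ : V →+* E
  ρ_algebraMap : ∀ a : K, ρ ⟨algebraMap K F a, isOver a⟩ = algebraMap K E a
  ker_iff : ∀ x : V, ρ x = 0 ↔ ¬ IsUnit x

namespace Spot

variable {F E G : Type u} [Field F] [Algebra K F] [Field E] [Algebra K E] [Field G] [Algebra K G]

/-- The valuation of a spot. -/
def kVal (r : Spot K F E) : KVal K F := ⟨r.V, r.isOver⟩

/-- An embedding as a spot. -/
def ofHom (φ : F →ₐ[K] E) : Spot K F E where
  V := ⊤
  isOver _ := ValuationSubring.mem_top _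
  ρ := φ.toRingHom.comp (⊤ : ValuationSubring F).subtype
  ρ_algebraMap a := φ.commutes a
  ker_iff x := by
    rw [RingHom.comp_apply, isUnit_iff_ne_zero, not_not]
    exact (map_eq_zero φ.toRingHom).trans ⟨fun h => Subtype.ext h, fun h => h ▸ rfl⟩

/-- The composite of a spot with a valuation downstairs. -/
def pullRing (r : Spot K F E) (W : ValuationSubring E) : ValuationSubring F :=
  ValuationSubring.ofSubring ((W.toSubring.comap r.ρ).map r.V.subtype) fun x => by
    by_cases hx : x ∈ r.V
    · by_cases hxW : r.ρ ⟨x, hx⟩ ∈ W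
      · exact Or.inl ⟨⟨x, hx⟩, hxW, rfl⟩
      · have hu : IsUnit (⟨x, hx⟩ : r.V) := by
          by_contra h
          exact hxW ((r.ker_iff _).mpr h ▸ W.zero_mem)
        obtain ⟨y, hy⟩ := hu.exists_right_inv
        have hy' : x⁻¹ = (y : F) := (eq_inv_of_mul_eq_one_right (by
          simpa using congrArg Subtype.val hy)).symm
        refine Or.inr ⟨y, ?_, hy'.symm⟩
        have h1 : r.ρ ⟨x, hx⟩ * r.ρ y = 1 := by rw [← map_mul, hy, map_one]
        show r.ρ y ∈ W
        rw [show r.ρ y = (r.ρ ⟨x, hx⟩)⁻¹ from eq_inv_of_mul_eq_one_right h1]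
        exact (W.mem_or_inv_mem _).resolve_left hxW
    · obtain ⟨⟨_, hi⟩, rfl, h0⟩ := exists_inv_eq_zero r.ker_iff hx
      refine Or.inr ⟨⟨x⁻¹, hi⟩, ?_, rfl⟩
      show r.ρ ⟨x⁻¹, hi⟩ ∈ W
      rw [h0]; exact W.zero_mem

theorem mem_pullRing (r : Spot K F E) (W : ValuationSubring E) {x : F} :
    x ∈ r.pullRing W ↔ ∃ h : x ∈ r.V, r.ρ ⟨x, h⟩ ∈ W := by
  rw [pullRing, ValuationSubring.mem_ofSubring, Subring.mem_map]
  constructor
  · rintro ⟨y, hy, rfl⟩; exact ⟨y.2, hy⟩
  · rintro ⟨h, hW⟩; exact ⟨⟨x, h⟩, hW, rfl⟩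

/-- The composite valuation. -/
def pull (r : Spot K F E) (W : KVal K E) : KVal K F :=
  ⟨r.pullRing W.1, fun a => (r.mem_pullRing W.1).mpr
    ⟨r.isOver a, (r.ρ_algebraMap a).symm ▸ W.2 a⟩⟩

theorem pull_le (r : Spot K F E) (W : KVal K E) : (r.pull W).1 ≤ r.V := fun _ hx =>
  ((r.mem_pullRing W.1).mp hx).1

theorem pull_mono (r : Spot K F E) {W W' : KVal K E} (h : W.1 ≤ W'.1) :
    (r.pull W).1 ≤ (r.pull W').1 := fun _ hx =>
  (r.mem_pullRing W'.1).mpr ⟨((r.mem_pullRing W.1).mp hx).1, h ((r.mem_pullRing W.1).mp hx).2⟩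

/-- The reduction of units. -/
def unitRed (r : Spot K F E) : r.V.unitGroup →* Eˣ :=
  (Units.map r.ρ.toMonoidHom).comp r.V.unitGroupMulEquiv.toMonoidHom

theorem coe_unitRed (r : Spot K F E) (x : r.V.unitGroup) (h : ((x : Fˣ) : F) ∈ r.V) :
    (r.unitRed x : E) = r.ρ ⟨_, h⟩ :=
  congrArg r.ρ (Subtype.ext (r.V.coe_unitGroupMulEquiv_apply x))

theorem unitRed_mem (r : Spot K F E) (W : KVal K E) (x : r.V.unitGroup)
    (hx : (x : Fˣ) ∈ (r.pull W).1.unitGroup) : r.unitRed x ∈ W.1.unitGroup := by
  have key : ∀ y : r.V.unitGroup, (y : Fˣ) ∈ (r.pull W).1.unitGroup →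
      (r.unitRed y : E) ∈ W.1 := fun y hy => by
    obtain ⟨h, hW⟩ := (r.mem_pullRing W.1).mp
      ((r.pull W).1.mem_of_valuation_le_one _ (le_of_eq hy))
    rw [r.coe_unitRed y h]; exact hW
  have h1 := key x hx
  have h2 := key x⁻¹ (inv_mem hx)
  rw [map_inv, Units.val_inv_eq_inv_val] at h2
  rw [ValuationSubring.mem_unitGroup_iff]
  refine le_antisymm ((W.1.valuation_le_one_iff _).mpr h1) ?_
  have h3 := (W.1.valuation_le_one_iff _).mpr h2
  rwa [map_inv₀, inv_le_one₀ (zero_lt_iff.mpr ((Valuation.ne_zero_iff _).mpr (Units.ne_zero _)))]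
    at h3

/-- The divisor element read off by a spot. -/
def resFun (r : Spot K F E) (d : vDiv K F) (W : KVal K E) : Eˣ :=
  r.unitRed ⟨d.1 (r.pull W) / d.1 r.kVal, d.2 _ r.kVal (r.pull_le W)⟩

/-- Restriction of divisors along a spot. -/
def res (r : Spot K F E) : vDiv K F →* vDiv K E where
  toFun d := ⟨r.resFun d, fun W W' h => by
    rw [resFun, resFun, ← map_div]
    refine r.unitRed_mem W' _ ?_
    simpa using d.2 _ _ (r.pull_mono h)⟩
  map_one' := Subtype.ext (funext fun W => by
    show r.unitRed _ = 1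
    exact (congrArg r.unitRed (Subtype.ext (by simp))).trans (map_one _))
  map_mul' a b := Subtype.ext (funext fun W => by
    show r.unitRed _ = r.unitRed _ * r.unitRed _
    exact (congrArg r.unitRed (Subtype.ext (by simp [mul_div_mul_comm]))).trans (map_mul _ _ _))

theorem coe_res_apply (r : Spot K F E) (d : vDiv K F) (W : KVal K E) :
    (r.res d).1 W = r.resFun d W := rfl

theorem res_isPrin (r : Spot K F E) {d : vDiv K F} (hd : IsPrin d) : IsPrin (r.res d) := by
  obtain ⟨h, hh⟩ := hd
  refine ⟨r.unitRed ⟨h / d.1 r.kVal, ?_⟩, fun W => ?_⟩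
  · rw [← inv_div]; exact inv_mem (hh r.kVal)
  · rw [coe_res_apply, resFun, ← map_div]
    refine r.unitRed_mem W _ ?_
    simpa using hh (r.pull W)

/-- Restriction of classes along a spot. -/
def resPic (r : Spot K F E) : VPic K F →* VPic K E :=
  QuotientGroup.map _ _ r.res fun _ hd => r.res_isPrin hd

theorem resPic_cls (r : Spot K F E) (d : vDiv K F) : r.resPic (cls d) = cls (r.res d) := rfl

/-- The reduction on a composite valuation. -/
def pullRed (r : Spot K F E) (W : KVal K E) : (r.pull W).1 →+* W.1 :=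
  (r.ρ.comp (ValuationSubring.inclusion _ _ (r.pull_le W))).codRestrict W.1.toSubring fun x =>
    ((r.mem_pullRing W.1).mp x.2).2

theorem isUnit_of_pullRed (r : Spot K F E) (W : KVal K E) {x : (r.pull W).1}
    (hu : IsUnit (r.pullRed W x)) : IsUnit x := by
  obtain ⟨y, hy⟩ := hu.exists_right_inv
  set x' : r.V := ⟨x.1, r.pull_le W x.2⟩
  have e2 : r.ρ x' * (y : E) = 1 := congrArg Subtype.val hy
  have hx0 : r.ρ x' ≠ 0 := left_ne_zero_of_mul_eq_one e2
  have hu' : IsUnit x' := by_contra fun h => hx0 ((r.ker_iff _).mpr h)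
  obtain ⟨z, hz⟩ := hu'.exists_right_inv
  have hz' : r.ρ z = (y : E) :=
    mul_left_cancel₀ hx0 ((show r.ρ x' * r.ρ z = 1 by rw [← map_mul, hz, map_one]).trans e2.symm)
  exact IsUnit.of_mul_eq_one ⟨z.1, (r.mem_pullRing W.1).mpr ⟨z.2, hz' ▸ y.2⟩⟩
    (Subtype.ext (congrArg (fun v : r.V => (v : F)) hz))

/-- The composite of spots. -/
def comp (s : Spot K E G) (r : Spot K F E) : Spot K F G where
  V := (r.pull s.kVal).1
  isOver := (r.pull s.kVal).2
  ρ := s.ρ.comp (r.pullRed s.kVal)
  ρ_algebraMap a := (congrArg s.ρ (Subtype.ext (r.ρ_algebraMap a))).trans (s.ρ_algebraMap a)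
  ker_iff _ := (s.ker_iff _).trans
    (not_congr ⟨r.isUnit_of_pullRed s.kVal, fun hu => hu.map _⟩)

end Spot

/-! ### The interface of an abelian variety -/

variable (K) in
/-- What the proof of the torsion count uses from an abelian variety of dimension `g` over `K`. -/
structure Model (g : ℕ) : Type (u + 1) where
  /-- The points with values in a field. -/
  Pts : ∀ (F : Type u) [Field F] [Algebra K F], Type u
  [addCommGroup : ∀ (F : Type u) [Field F] [Algebra K F], AddCommGroup (Pts F)]
  /-- Specialisation of points (properness). -/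
  map : ∀ {F E : Type u} [Field F] [Algebra K F] [Field E] [Algebra K E],
    Spot K F E → Pts F →+ Pts E
  map_id : ∀ {F : Type u} [Field F] [Algebra K F] (P : Pts F),
    map (Spot.ofHom (AlgHom.id K F)) P = P
  map_comp : ∀ {F E G : Type u} [Field F] [Algebra K F] [Field E] [Algebra K E] [Field G]
    [Algebra K G] (s : Spot K E G) (r : Spot K F E) (P : Pts F), map (s.comp r) P = map s (map r P)
  map_injective : ∀ {F E : Type u} [Field F] [Algebra K F] [Field E] [Algebra K E]
    (φ : F →ₐ[K] E), Function.Injective (map (Spot.ofHom φ))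
  /-- The function field. -/
  FA : Type u
  [fieldFA : Field FA]
  [algebraFA : Algebra K FA]
  [essFinite : Algebra.EssFiniteType K FA]
  trdeg_eq : Algebra.trdeg K FA = g
  /-- The generic point. -/
  gen : Pts FA
  generic_unique : ∀ {E : Type u} [Field E] [Algebra K E] (r : Spot K FA E) (j : FA →ₐ[K] E),
    map r gen = map (Spot.ofHom j) gen → r.V = ⊤ ∧ ∀ x : r.V, r.ρ x = j x
  /-- The affine charts. -/
  Chart : Type u
  /-- The coordinate ring. -/
  ring : Chart → Subalgebra K FA
  ring_fg : ∀ c, (ring c).FG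
  ring_frac : ∀ c, IntermediateField.adjoin K (ring c : Set FA) = ⊤
  /-- The point of a homomorphism on a chart. -/
  pt : ∀ (c : Chart) {F : Type u} [Field F] [Algebra K F], (ring c →ₐ[K] F) → Pts F
  pt_gen : ∀ c, pt c (ring c).val = gen
  map_pt : ∀ (c : Chart) {F E : Type u} [Field F] [Algebra K F] [Field E] [Algebra K E]
    (r : Spot K F E) (h : ring c →ₐ[K] F) (h' : ring c →ₐ[K] E) (hV : ∀ a, h a ∈ r.V),
    (∀ a, r.ρ ⟨h a, hV a⟩ = h' a) → map r (pt c h) = pt c h'
  /-- A spot of the function field whose point lies in a chart is centred in it. -/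
  pt_centre : ∀ (c : Chart) {E : Type u} [Field E] [Algebra K E] (r : Spot K FA E)
    (h' : ring c →ₐ[K] E), map r gen = pt c h' →
    ∃ hV : ∀ a : ring c, (a : FA) ∈ r.V, ∀ a : ring c, r.ρ ⟨a, hV a⟩ = h' a
  exists_chart : ∀ {F : Type u} [Field F] [Algebra K F] (P : Pts F), ∃ c h, pt c h = P
  /-- Multiplication by an invertible integer is separable and finite on the function field. -/
  exists_mulHom : ∀ n : ℕ, (n : K) ≠ 0 → ∃ φ : FA →ₐ[K] FA,
    map (Spot.ofHom φ) gen = n • gen ∧
      FiniteDimensional φ.fieldRange FA ∧ Algebra.IsSeparable φ.fieldRange FA ∧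
      Nat.card {x : Pts K // n • x = 0} = Module.finrank φ.fieldRange FA
  /-- A symmetric divisor, evaluated at points. -/
  δ : ∀ {F : Type u} [Field F] [Algebra K F], Pts F → VPic K F
  δ_map : ∀ {F E : Type u} [Field F] [Algebra K F] [Field E] [Algebra K E] (r : Spot K F E)
    (P : Pts F), r.resPic (δ P) = δ (map r P)
  δ_neg : ∀ {F : Type u} [Field F] [Algebra K F] (P : Pts F), δ (-P) = δ P
  /-- A representative with one equation at each point and finitely many equations in all. -/
  δ_local : ∀ {F : Type u} [Field F] [Algebra K F] (P : Pts F), ∃ d : vDiv K F, cls d = δ P ∧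
    (Set.range d.1).Finite ∧
    ∀ (E : Type u) [Field E] [Algebra K E] (x : Pts E), ∃ b : Fˣ, ∀ r : Spot K F E,
      map r P = x → b / d.1 r.kVal ∈ r.V.unitGroup
  δ_big : ∃ D : vDiv K FA, cls D = δ gen ∧ IsBig D

attribute [instance] Model.addCommGroup Model.fieldFA Model.algebraFA Model.essFinite

namespace Model

variable {g : ℕ} (M : Model K g)

/-- The defect of additivity of three points. -/
def cube {F : Type u} [Field F] [Algebra K F] (P Q R : M.Pts F) : VPic K F :=
  M.δ (P + Q + R) * M.δ P * M.δ Q * M.δ R /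
    (M.δ (P + Q) * M.δ (P + R) * M.δ (Q + R) * M.δ 0)

end Model

/-- Viewing a spot over a larger constant field as one over `K`. -/
def Spot.restrict {Ω : Type u} [Field Ω] [Algebra K Ω] {F E : Type u} [Field F] [Algebra K F]
    [Algebra Ω F] [IsScalarTower K Ω F] [Field E] [Algebra K E] [Algebra Ω E]
    [IsScalarTower K Ω E] (r : Spot Ω F E) : Spot K F E where
  V := r.V
  isOver a := by rw [IsScalarTower.algebraMap_apply K Ω F]; exact r.isOver _
  ρ := r.ρ
  ρ_algebraMap a := by
    rw [IsScalarTower.algebraMap_apply K Ω E, ← r.ρ_algebraMap]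
    exact congrArg r.ρ (Subtype.ext (IsScalarTower.algebraMap_apply K Ω F a))
  ker_iff := r.ker_iff

end FermatAgent.AV
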