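import Fermat.Agent.AV.Curve.CurveConst

/-!
# The class of the pullback by multiplication from the theorem of the cube

The cube relation gives a recurrence for the classes at multiples of the generic point; solving it
gives the class of the pullback by multiplication, up to torsion.
-/

set_option autoImplicit false

noncomputable section

universe u

namespace FermatAgent.AV

variable {K : Type u} [Field K]

theorem vPic_self_eq_one (x : VPic K K) : x = 1 := by
  induction x using QuotientGroup.induction_on with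
  | _ d =>
    refine (cls_eq_one_iff d).mpr ⟨d.1 topVal, fun V => ?_⟩
    obtain rfl : V = topVal := Subtype.ext (kVal_eq_top V)
    simp

theorem recurrence_identity {G : Type*} [CommGroup G] (a b c x : G) (e f : ℕ) :
    a / ((x ^ 2) ^ e * x ^ 2 * (x ^ f)⁻¹) =
      (b / x ^ e) ^ 2 * (c / x ^ f)⁻¹ * (b * b * x * x / (a * c * 1 * 1))⁻¹ := by
  apply Additive.ofMul.injective
  simp only [ofMul_mul, ofMul_div, ofMul_inv, ofMul_pow, ofMul_one]
  module

namespace Model

variable {g : ℕ} (M : Model K g)

theorem δ_zero {F : Type u} [Field F] [Algebra K F] : M.δ (0 : M.Pts F) = 1 := by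
  rw [← map_zero (M.map (Spot.ofHom (Algebra.ofId K F))), ← M.δ_map,
    vPic_self_eq_one (M.δ (0 : M.Pts K)), map_one]

/-- **The recurrence**: the theorem of the cube gives that `δ` at `n` times the generic point is
`n ^ 2` times `δ` at the generic point, up to torsion. -/
theorem isTors_delta_nsmul [IsAlgClosed K] (n : ℕ) :
    IsTors (M.δ (n • M.gen) / M.δ M.gen ^ (n ^ 2)) := by
  set x := M.gen
  suffices h : ∀ m : ℕ, IsTors (M.δ (m • x) / M.δ x ^ (m ^ 2)) ∧
      IsTors (M.δ ((m + 1) • x) / M.δ x ^ ((m + 1) ^ 2)) from (h n).1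
  intro m
  induction m with
  | zero => simp [δ_zero, IsTors.one]
  | succ m ih =>
    refine ⟨ih.2, ?_⟩
    have hc := M.cube_isTors M.FA ((m + 1) • x) x (-x)
    have e1 : (m + 1) • x + x + -x = (m + 1) • x := add_neg_cancel_right _ _
    have e2 : (m + 1) • x + -x = m • x := by rw [succ_nsmul, add_neg_cancel_right]
    have key : M.δ ((m + 1 + 1) • x) / M.δ x ^ ((m + 1 + 1) ^ 2) =
        (M.δ ((m + 1) • x) / M.δ x ^ ((m + 1) ^ 2)) ^ 2 *
          (M.δ (m • x) / M.δ x ^ (m ^ 2))⁻¹ * (M.cube ((m + 1) • x) x (-x))⁻¹ := by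
      unfold Model.cube
      rw [e1, e2, ← succ_nsmul, add_neg_cancel, δ_zero, M.δ_neg,
        show (m + 1 + 1) ^ 2 = 2 * (m + 1) ^ 2 + 2 - m ^ 2 by
          zify [show m ^ 2 ≤ 2 * (m + 1) ^ 2 + 2 by nlinarith]; ring,
        pow_sub _ (show m ^ 2 ≤ 2 * (m + 1) ^ 2 + 2 by nlinarith), pow_add, pow_mul]
      exact recurrence_identity (G := VPic K M.FA) _ _ _ _ _ _
    rw [key]
    exact ((ih.2.pow 2).mul ih.1.inv).mul hc.inv

end Model

end FermatAgent.AV
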