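import Fermat.Agent.AV.Squeeze.Glue
import Fermat.Agent.AV.Recurrence

/-!
# The number of torsion points of a model of an abelian variety

The class of the pullback by `[n]` is `n²` times that of the divisor up to torsion, so the degree
squeeze gives `n ^ (2 * g)` points killed by `n`.
-/

set_option autoImplicit false

noncomputable section

universe u

namespace FermatAgent.AV

open Squeeze

variable {K : Type u} [Field K]

namespace Model

variable {g : ℕ} (M : Model K g)

theorem hom_eq_of_map_gen {E : Type u} [Field E] [Algebra K E] {i j : M.FA →ₐ[K] E}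
    (h : M.map (Spot.ofHom i) M.gen = M.map (Spot.ofHom j) M.gen) : i = j :=
  AlgHom.ext fun x => (M.generic_unique (Spot.ofHom i) j h).2 ⟨x, ValuationSubring.mem_top x⟩

theorem hom_eq_comp_of_map_gen {φ ψ χ : M.FA →ₐ[K] M.FA}
    (h : M.map (Spot.ofHom φ) (M.map (Spot.ofHom ψ) M.gen) = M.map (Spot.ofHom χ) M.gen) :
    χ = φ.comp ψ := by
  rw [← M.map_comp] at h
  obtain ⟨hV, hρ⟩ := M.generic_unique ((Spot.ofHom φ).comp (Spot.ofHom ψ)) χ h
  refine AlgHom.ext fun x => ?_
  have hx : x ∈ ((Spot.ofHom φ).comp (Spot.ofHom ψ)).V := hV ▸ ValuationSubring.mem_top x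
  exact (hρ ⟨x, hx⟩).symm

/-- **The torsion count**: a model of dimension `g` has `n ^ (2 g)` rational points killed by `n`,
for `n` invertible in `K`. -/
theorem natCard_torsion [IsAlgClosed K] (n : ℕ) (hn : (n : K) ≠ 0) :
    Nat.card {x : M.Pts K // n • x = 0} = n ^ (2 * g) := by
  have hnj : ∀ j : ℕ, ((n ^ j : ℕ) : K) ≠ 0 := fun j => by
    push_cast; exact pow_ne_zero j hn
  have hn0 : 0 < n := Nat.pos_of_ne_zero fun h => hn (by rw [h, Nat.cast_zero])
  choose φ hφgen hφfin hφsep hφcard using fun j => M.exists_mulHom (n ^ j) (hnj j)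
  have h0 : φ 0 = AlgHom.id K M.FA := M.hom_eq_of_map_gen (by
    rw [hφgen, pow_zero, one_smul, M.map_id])
  have hs : ∀ j, φ (j + 1) = (φ 1).comp (φ j) := fun j => M.hom_eq_comp_of_map_gen (by
    rw [hφgen j, map_nsmul, hφgen 1, hφgen (j + 1), smul_smul, pow_one, ← pow_succ])
  obtain ⟨D, hDcls, hDbig⟩ := M.δ_big
  obtain ⟨C, hCb⟩ := degreeSqueeze M.FA g M.trdeg_eq D hDbig
  have hb : ∀ j, Module.finrank (φ j).fieldRange M.FA ≤ C * ((n ^ j) ^ 2) ^ g ∧
      ((n ^ j) ^ 2) ^ g ≤ C * Module.finrank (φ j).fieldRange M.FA := fun j => by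
    refine hCb (φ j) _ (hφfin j) (hφsep j) (pow_pos (pow_pos hn0 j) 2) ?_
    rw [← Spot.resPic_cls, hDcls, M.δ_map, hφgen]
    exact M.isTors_delta_nsmul _
  have hcnt := hφcard 1
  rw [pow_one] at hcnt
  rw [hcnt]
  have hN := fun j => finrank_fieldRange_iterate (φ 1) φ h0 hs j
  have e : ∀ j : ℕ, ((n ^ j) ^ 2) ^ g = (n ^ (2 * g)) ^ j := fun j => by
    rw [← pow_mul, ← pow_mul, ← pow_mul]; ring_nf
  refine eq_of_pow_le (B := C) (Nat.pow_pos hn0) (fun j => ?_) fun j => ?_
  · rw [← hN, ← e]; exact (hb j).1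
  · rw [← hN, ← e]; exact (hb j).2

end Model

end FermatAgent.AV
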