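import Fermat.Agent.AV.Geo.Model
import Fermat.Agent.AV.Main

/-!
# Torsion of an abelian variety from the theorem of the cube

The geometric hypotheses give a model, and the theorem of the cube for it gives the count.
-/

set_option autoImplicit false

noncomputable section

open CategoryTheory AlgebraicGeometry NeronModelInfra GoodReductionJacobian

universe u

namespace FermatAgent.AV

/-- **The torsion count of an abelian variety**: over an algebraically closed field `K` an
abelian variety of dimension `g` has exactly `n ^ (2 g)` rational points killed by `n`, for every
`n` invertible in `K`. -/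
theorem natCard_isTorsionPoint (K : Type u) [Field K] [IsAlgClosed K] {A : Scheme.{u}}
    (f : A ⟶ Spec (CommRingCat.of K)) (L : RelativeGroupLaw K f) (hc : L.IsCommutative)
    (hA : AbelianSchemePropertyBundle K f) (g : ℕ) [SmoothOfRelativeDimension g f]
    (n : ℕ) (hn : (n : K) ≠ 0) :
    Nat.card {x : SchemeHomOver (𝟙 (Spec (CommRingCat.of K))) f //
        L.IsTorsionPoint (𝟙 (Spec (CommRingCat.of K))) n x} = n ^ (2 * g) := by
  have : IsProper f := hA.proper
  rw [Geo.natCard_torsion_eq L hc n]
  let M := Geo.model f L hc hA g
  exact M.natCard_torsion n hn

end FermatAgent.AV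

end
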