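import Fermat.Agent.AV.Calc
import Fermat.Agent.AV.Basic.RationalPoint

/-!
# Places of fields

Tensor products of domains over an algebraically closed field are domains; homomorphisms of
subrings extend to spots; every extension of an algebraically closed field has a rational spot.
-/

set_option autoImplicit false

noncomputable section

universe u

open scoped TensorProduct

namespace FermatAgent.AV

/-! ### Tensor products of domains -/

section Tensor

variable {K : Type u} [Field K] [IsAlgClosed K]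

/-- A point with values in the constants avoiding a nonzero element. -/
theorem exists_algHom_ne_zero {R : Type u} [CommRing R] [IsDomain R] [Algebra K R]
    [Algebra.FiniteType K R] {a : R} (ha : a ≠ 0) : ∃ h : R →ₐ[K] K, h a ≠ 0 := by
  set Ra := Localization.Away a
  have : Nontrivial Ra := (IsLocalization.injective Ra
    (Submonoid.powers_le.mpr (mem_nonZeroDivisors_of_ne_zero ha))).nontrivial
  obtain ⟨m, hm⟩ := Ideal.exists_maximal Ra
  have : Algebra.FiniteType R Ra := IsLocalization.finiteType_of_monoid_fg (Submonoid.powers a) Ra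
  have : Algebra.FiniteType K Ra :=
    Algebra.FiniteType.trans (R := K) (S := R) (A := Ra) inferInstance inferInstance
  have := finite_quotient_maximal (k := K) m
  obtain ⟨e, he⟩ := exists_algHom_ker (k := K) m
  exact ⟨e.comp (IsScalarTower.toAlgHom K R Ra), fun h => hm.ne_top (Ideal.eq_top_of_isUnit_mem _
    ((he _).mp h)
    (IsLocalization.map_units Ra (⟨a, Submonoid.mem_powers a⟩ : Submonoid.powers a)))⟩

variable {R S : Type u} [CommRing R] [IsDomain R] [Algebra K R] [CommRing S] [Algebra K S]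

/-- A point of the first factor keeping an element of a tensor product nonzero. -/
theorem exists_algHom_tensor_ne_zero [Algebra.FiniteType K R] {s : Finset (R ⊗[K] S)}
    (hs : ∀ x ∈ s, x ≠ 0) : ∃ h : R →ₐ[K] K, ∀ x ∈ s,
      Algebra.TensorProduct.lift ((Algebra.ofId K S).comp h) (AlgHom.id K S)
        (fun _ _ => Commute.all _ _) x ≠ 0 := by
  classical
  set b := Module.Free.chooseBasis K S
  set B := Algebra.TensorProduct.basis R b
  have hex : ∀ x : R ⊗[K] S, x ≠ 0 → ∃ i, B.repr x i ≠ 0 := fun x hx => by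
    by_contra hall
    push Not at hall
    exact hx (B.repr.injective (Finsupp.ext fun i => by rw [map_zero]; exact hall i))
  choose ix hix using hex
  obtain ⟨h, hh⟩ :=
    exists_algHom_ne_zero (K := K) (a := ∏ x ∈ s.attach, B.repr x.1 (ix x.1 (hs x.1 x.2)))
      (Finset.prod_ne_zero_iff.mpr fun x _ => hix x.1 (hs x.1 x.2))
  rw [map_prod, Finset.prod_ne_zero_iff] at hh
  refine ⟨h, fun x hx h0 => hh ⟨x, hx⟩ (Finset.mem_attach _ _) ?_⟩
  set L := Algebra.TensorProduct.lift ((Algebra.ofId K S).comp h) (AlgHom.id K S)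
    (fun _ _ => Commute.all _ _)
  have key : ∀ y : R ⊗[K] S, ∀ i, b.repr (L y) i = h (B.repr y i) := by
    intro y i
    induction y using TensorProduct.induction_on with
    | zero => simp
    | tmul r t =>
      simp only [L, B, Algebra.TensorProduct.lift_tmul, AlgHom.id_apply, AlgHom.comp_apply,
        Algebra.ofId_apply, ← Algebra.smul_def, map_smul, Finsupp.smul_apply, smul_eq_mul,
        Algebra.TensorProduct.basis_repr_tmul, Finsupp.mapRange_apply, map_mul, AlgHom.commutes,
        Algebra.algebraMap_self, RingHom.id_apply]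
    | add y z hy hz => simp only [map_add, Finsupp.add_apply, hy, hz]
  rw [← key, h0, map_zero, Finsupp.zero_apply]

instance isDomain_tensor [IsDomain S] : IsDomain (R ⊗[K] S) := by
  have : Nontrivial (R ⊗[K] S) := inferInstance
  have : NoZeroDivisors (R ⊗[K] S) := by
    refine ⟨fun {x y} hxy => ?_⟩
    by_contra hne
    push Not at hne
    classical
    obtain ⟨R₀, hR₀, hxy₀⟩ : ∃ R₀ : Subalgebra K R, R₀.FG ∧
        x ∈ (Algebra.TensorProduct.map R₀.val (AlgHom.id K S)).range ∧
        y ∈ (Algebra.TensorProduct.map R₀.val (AlgHom.id K S)).range := by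
      have hmem : ∀ z : R ⊗[K] S, ∃ t : Finset R, ∀ R₀ : Subalgebra K R, (↑t : Set R) ⊆ R₀ →
          z ∈ (Algebra.TensorProduct.map R₀.val (AlgHom.id K S)).range := fun z => by
        induction z using TensorProduct.induction_on with
        | zero => exact ⟨∅, fun R₀ _ => Subalgebra.zero_mem _⟩
        | tmul r t =>
          exact ⟨{r}, fun R₀ hR₀ => ⟨(⟨r, hR₀ (by simp)⟩ : R₀) ⊗ₜ t, rfl⟩⟩
        | add a b ha hb =>
          obtain ⟨t₁, h₁⟩ := ha
          obtain ⟨t₂, h₂⟩ := hb
          exact ⟨t₁ ∪ t₂, fun R₀ hR₀ => Subalgebra.add_mem _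
            (h₁ R₀ (subset_trans (by simp) hR₀)) (h₂ R₀ (subset_trans (by simp) hR₀))⟩
      obtain ⟨t₁, h₁⟩ := hmem x
      obtain ⟨t₂, h₂⟩ := hmem y
      exact ⟨Algebra.adjoin K ↑(t₁ ∪ t₂), Subalgebra.fg_adjoin_finset _,
        h₁ _ (subset_trans (by simp) Algebra.subset_adjoin),
        h₂ _ (subset_trans (by simp) Algebra.subset_adjoin)⟩
    obtain ⟨⟨x₀, rfl⟩, y₀, rfl⟩ := hxy₀
    have hinj : Function.Injective (Algebra.TensorProduct.map R₀.val (AlgHom.id K S)) :=
      Module.Flat.rTensor_preserves_injective_linearMap R₀.val.toLinearMap Subtype.val_injective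
    rw [← map_mul] at hxy
    have h0 : x₀ * y₀ = 0 := hinj (hxy.trans (map_zero _).symm)
    have : Algebra.FiniteType K R₀ := R₀.fg_iff_finiteType.mp hR₀
    obtain ⟨h, hh⟩ := exists_algHom_tensor_ne_zero (K := K) (s := {x₀, y₀})
      (by
        simp only [Finset.mem_insert, Finset.mem_singleton]
        rintro z (rfl | rfl)
        · exact fun e => hne.1 ((congrArg _ e).trans (map_zero _))
        · exact fun e => hne.2 ((congrArg _ e).trans (map_zero _)))
    have := congrArg (Algebra.TensorProduct.lift ((Algebra.ofId K S).comp h) (AlgHom.id K S)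
      (fun _ _ => Commute.all _ _)) h0
    rw [map_mul, map_zero, mul_eq_zero] at this
    rcases this with h1 | h1
    · exact hh x₀ (by simp) h1
    · exact hh y₀ (by simp) h1
  exact NoZeroDivisors.to_isDomain _

end Tensor

/-! ### Spots -/

section Spots

variable {K : Type u} [Field K]

/-- Two extensions of a field embed in a third one. -/
theorem exists_amalgam {k A B : Type u} [Field k] [Field A] [Field B] (φ : k →+* A)
    (ψ : k →+* B) : ∃ (E : Type u) (_ : Field E) (a : A →+* E) (b : B →+* E),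
      a.comp φ = b.comp ψ := by
  let := φ.toAlgebra
  let := ψ.toAlgebra
  have : Nontrivial (A ⊗[k] B) := inferInstance
  obtain ⟨m, hm⟩ := Ideal.exists_maximal (A ⊗[k] B)
  refine ⟨(A ⊗[k] B) ⧸ m, Ideal.Quotient.field m,
    (Ideal.Quotient.mk m).comp Algebra.TensorProduct.includeLeftRingHom,
    (Ideal.Quotient.mk m).comp Algebra.TensorProduct.includeRight.toRingHom,
    RingHom.ext fun x => congrArg (Ideal.Quotient.mk m) ?_⟩
  show φ x ⊗ₜ[k] (1 : B) = (1 : A) ⊗ₜ[k] ψ x
  rw [show φ x = x • (1 : A) from (Algebra.algebraMap_eq_smul_one x),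
    show ψ x = x • (1 : B) from (Algebra.algebraMap_eq_smul_one x), TensorProduct.smul_tmul]

/-- **A homomorphism of a subring extends to a spot.** -/
theorem exists_spot {F G T : Type u} [Field F] [Algebra K F] [Field G] [Algebra K G] [CommRing T]
    [Algebra K T] (i : T →ₐ[K] F) (hi : Function.Injective i) (e : T →ₐ[K] G) :
    ∃ (E : Type u) (_ : Field E) (_ : Algebra K E) (ι : G →ₐ[K] E) (r : Spot K F E),
      ∃ hV : ∀ t, i t ∈ r.V, ∀ t, r.ρ ⟨i t, hV t⟩ = ι (e t) := by
  have : IsDomain T := hi.isDomain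
  set P : Ideal T := RingHom.ker e.toRingHom
  have hP : P.IsPrime := RingHom.ker_isPrime _
  set A : Subring F := i.toRingHom.range
  set iA : T ≃+* A := RingEquiv.ofBijective i.toRingHom.rangeRestrict
    ⟨fun a b h => hi (congrArg Subtype.val h), RingHom.rangeRestrict_surjective _⟩
  set PA : Ideal A := P.comap iA.symm.toRingHom
  have : PA.IsPrime := Ideal.IsPrime.comap _
  obtain ⟨V, hle, hloc⟩ := (LocalSubring.ofPrime A PA).exists_le_valuationSubring
  have hV : ∀ t, i t ∈ V := fun t => hle (LocalSubring.le_ofPrime A PA (iA t).2)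
  have hisK : IsOver K V := fun a => by rw [← i.commutes]; exact hV _
  let iV : T →+* V := i.toRingHom.codRestrict V.toSubring hV
  have hker : ∀ t, IsLocalRing.residue V (iV t) = 0 ↔ e t = 0 := fun t => by
    set x : (LocalSubring.ofPrime A PA).toSubring := algebraMap A _ (iA t)
    have hx : Subring.inclusion hle x = iV t := Subtype.ext rfl
    rw [IsLocalRing.residue_eq_zero_iff, IsLocalRing.mem_maximalIdeal, mem_nonunits_iff, ← hx]
    have h1 : IsUnit x ↔ iA t ∉ PA :=
      IsLocalization.AtPrime.isUnit_to_map_iff (LocalSubring.ofPrime A PA).toSubring PA (iA t)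
    have h2 : iA t ∈ PA ↔ e t = 0 := by
      show iA.symm (iA t) ∈ P ↔ _
      rw [RingEquiv.symm_apply_apply]
      rfl
    rw [← h2]
    exact ⟨fun hu => by_contra fun h => hu ((h1.mpr h).map _),
      fun hp hu => h1.mp (hloc.1 _ hu) hp⟩
  set R₀ := T ⧸ P
  let toκ : R₀ →+* IsLocalRing.ResidueField V :=
    Ideal.Quotient.lift P ((IsLocalRing.residue V).comp iV) fun t ht => (hker t).mpr ht
  have hinj1 : Function.Injective toκ := by
    rw [injective_iff_map_eq_zero]
    intro y hy
    obtain ⟨t, rfl⟩ := Ideal.Quotient.mk_surjective y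
    rw [Ideal.Quotient.eq_zero_iff_mem]
    exact (hker t).mp hy
  let toG : R₀ →+* G := RingHom.kerLift e.toRingHom
  obtain ⟨E, instE, a, b, hab⟩ := exists_amalgam
    (IsFractionRing.lift (K := FractionRing R₀) hinj1)
    (IsFractionRing.lift (K := FractionRing R₀) (RingHom.kerLift_injective e.toRingHom))
  let := instE
  let : Algebra K E := (b.comp (algebraMap K G)).toAlgebra
  have hab' : ∀ t, a (IsLocalRing.residue V (iV t)) = b (e t) := fun t => by
    have h := DFunLike.congr_fun hab (algebraMap R₀ (FractionRing R₀) (Ideal.Quotient.mk P t))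
    rwa [RingHom.comp_apply, RingHom.comp_apply, IsFractionRing.lift_algebraMap,
      IsFractionRing.lift_algebraMap] at h
  refine ⟨E, instE, inferInstance, { b with commutes' := fun _ => rfl },
    { V := V, isOver := hisK, ρ := a.comp (IsLocalRing.residue V)
      ρ_algebraMap := fun c => ?_, ker_iff := fun x => ?_ }, hV, fun t => hab' t⟩
  · have h := hab' (algebraMap K T c)
    rw [e.commutes] at h
    refine Eq.trans ?_ h
    exact congrArg (a.comp (IsLocalRing.residue V)) (Subtype.ext (i.commutes c).symm)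
  · rw [RingHom.comp_apply, map_eq_zero, IsLocalRing.residue_eq_zero_iff,
      IsLocalRing.mem_maximalIdeal, mem_nonunits_iff]

variable {Z E : Type u} [Field Z] [Algebra K Z] [Field E] [Algebra K E]

/-- The residue map of a valuation as a spot. -/
theorem exists_residueSpot (W : KVal K Z) :
    ∃ (κ : Type u) (_ : Field κ) (_ : Algebra K κ) (q : Spot K Z κ), q.V = W.1 := by
  let κ := IsLocalRing.ResidueField W.1
  let : Algebra K κ :=
    ((IsLocalRing.residue W.1).comp ((algebraMap K Z).codRestrict W.1.toSubring W.2)).toAlgebra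
  exact ⟨κ, inferInstance, inferInstance,
    { V := W.1, isOver := W.2, ρ := IsLocalRing.residue W.1, ρ_algebraMap := fun _ => rfl
      ker_iff := fun x => by
        rw [IsLocalRing.residue_eq_zero_iff, IsLocalRing.mem_maximalIdeal, mem_nonunits_iff] },
    rfl⟩

/-- **A rational spot of an extension of an algebraically closed field.** -/
theorem exists_spot_rational [IsAlgClosed K] (G : Type u) [Field G] [Algebra K G] :
    Nonempty (Spot K G K) := by
  obtain ⟨V, hV, hmin⟩ : ∃ V : ValuationSubring G, IsOver K V ∧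
      ∀ W : ValuationSubring G, IsOver K W → W ≤ V → V ≤ W := by
    set Z : Set (ValuationSubring G)ᵒᵈ := {W | IsOver K (OrderDual.ofDual W)}
    have hub : ∀ c ⊆ Z, IsChain (· ≤ ·) c → ∀ y ∈ c, ∃ ub ∈ Z, ∀ z ∈ c, z ≤ ub := by
      intro c hc hchain y hy
      let S : Subring G := ⨅ W : c, (OrderDual.ofDual W.1).toSubring
      have hS : ∀ x, x ∈ S ∨ x⁻¹ ∈ S := fun x => by
        by_contra hx
        push Not at hx
        obtain ⟨h1, h2⟩ := hx
        simp only [S, Subring.mem_iInf, not_forall] at h1 h2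
        obtain ⟨⟨W, hW⟩, hxW⟩ := h1
        obtain ⟨⟨W', hW'⟩, hxW'⟩ := h2
        have hi : x⁻¹ ∈ OrderDual.ofDual W :=
          ((OrderDual.ofDual W).mem_or_inv_mem x).resolve_left hxW
        have hi' : x ∈ OrderDual.ofDual W' :=
          ((OrderDual.ofDual W').mem_or_inv_mem x).resolve_right hxW'
        rcases hchain.total hW hW' with h | h
        · exact hxW ((show OrderDual.ofDual W' ≤ OrderDual.ofDual W from h) hi')
        · exact hxW' ((show OrderDual.ofDual W ≤ OrderDual.ofDual W' from h) hi)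
      refine ⟨OrderDual.toDual (ValuationSubring.ofSubring S hS), fun a => ?_, fun W hW x hx => ?_⟩
      · exact (ValuationSubring.mem_ofSubring S hS _).mpr
          (Subring.mem_iInf.mpr fun W => hc W.2 a)
      · exact Subring.mem_iInf.mp ((ValuationSubring.mem_ofSubring S hS x).mp hx) ⟨W, hW⟩
    obtain ⟨V, -, hV⟩ := zorn_le_nonempty₀ Z hub (OrderDual.toDual ⊤)
      (fun _ => ValuationSubring.mem_top _)
    exact ⟨OrderDual.ofDual V, hV.1, fun W hW hle => hV.2 (y := OrderDual.toDual W) hW hle⟩
  let κ := IsLocalRing.ResidueField V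
  let iK : K →+* V := (algebraMap K G).codRestrict V.toSubring hV
  let : Algebra K κ := ((IsLocalRing.residue V).comp iK).toAlgebra
  let q : Spot K G κ :=
    { V := V, isOver := hV, ρ := IsLocalRing.residue V, ρ_algebraMap := fun _ => rfl
      ker_iff := fun x => by
        rw [IsLocalRing.residue_eq_zero_iff, IsLocalRing.mem_maximalIdeal, mem_nonunits_iff] }
  have halg : ∀ t : κ, IsIntegral K t := fun t =>
      FermatAgent.Curve.isIntegralElem_of_forall_valuationSubring _ fun W hW => by
    let W' : KVal K κ := ⟨W, hW⟩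
    obtain ⟨s, hs⟩ := IsLocalRing.residue_surjective t
    have hle := hmin (q.pull W').1 (q.pull W').2 (q.pull_le W')
    obtain ⟨h', hW''⟩ := (q.mem_pullRing W).mp (hle s.2)
    exact hs ▸ hW''
  have : Algebra.IsIntegral K κ := ⟨halg⟩
  have hb : Function.Bijective (Algebra.ofId K κ) :=
    ⟨(algebraMap K κ).injective, IsAlgClosed.algebraMap_bijective_of_isIntegral.2⟩
  exact ⟨(Spot.ofHom (AlgEquiv.ofBijective _ hb).symm.toAlgHom).comp q⟩

/-- **Specialisation below a valuation**, with values in an algebraically closed field. -/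
theorem exists_spot_le [IsAlgClosed E] {A : Subalgebra K Z} (W : KVal K Z)
    (hA : ∀ a ∈ A, a ∈ W.1) (e : A →ₐ[K] E) (hgen : ∀ a : A, e a ≠ 0 → (a : Z)⁻¹ ∈ W.1) :
    ∃ r : Spot K Z E, r.V ≤ W.1 ∧ ∀ a : A, ∃ h : (a : Z) ∈ r.V, r.ρ ⟨a, h⟩ = e a := by
  obtain ⟨κ, _, _, q, hq⟩ := exists_residueSpot W
  let π : A →ₐ[K] κ :=
    { toRingHom := q.ρ.comp ((A.val.toRingHom).codRestrict q.V.toSubring fun a => hq ▸ hA _ a.2)
      commutes' := fun c => q.ρ_algebraMap c }
  have hker : RingHom.ker π.toRingHom ≤ RingHom.ker e.toRingHom := fun a ha => by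
    rw [RingHom.mem_ker] at ha ⊢
    by_contra hne
    have hi : (a : Z)⁻¹ ∈ q.V := hq ▸ hgen a hne
    rcases eq_or_ne (a : Z) 0 with h0 | h0
    · exact hne (by rw [show a = 0 from Subtype.ext h0, map_zero])
    exact (q.ker_iff _).1 ha (isUnit_iff_exists_inv.2
      ⟨⟨_, hi⟩, Subtype.ext (mul_inv_cancel₀ h0)⟩)
  let i : A ⧸ RingHom.ker π.toRingHom →ₐ[K] κ :=
    Ideal.Quotient.liftₐ _ π fun a ha => ha
  have hi : Function.Injective i := RingHom.kerLift_injective π.toRingHom
  let e' : A ⧸ RingHom.ker π.toRingHom →ₐ[K] E :=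
    Ideal.Quotient.liftₐ _ e fun a ha => hker ha
  obtain ⟨E', _, _, ι, r, hV, hρ⟩ := exists_spot i hi e'
  let : Algebra E E' := ι.toRingHom.toAlgebra
  have : IsScalarTower K E E' := IsScalarTower.of_algebraMap_eq fun c => (ι.commutes c).symm
  obtain ⟨s⟩ := exists_spot_rational (K := E) E'
  refine ⟨(s.restrict (K := K)).comp (r.comp q), fun x hx => ?_, fun a => ?_⟩
  · exact hq ▸ q.pull_le _ (Spot.pull_le _ _ hx)
  · have ha : (a : Z) ∈ q.V := hq ▸ hA _ a.2
    have hia : q.ρ ⟨a, ha⟩ = i (Ideal.Quotient.mk _ a) := rfl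
    have h1 : (a : Z) ∈ (r.comp q).V :=
      (q.mem_pullRing _).2 ⟨ha, by rw [hia]; exact hV _⟩
    have h2 : (r.comp q).ρ ⟨a, h1⟩ = ι (e a) := by
      show r.ρ ⟨q.ρ ⟨a, ha⟩, _⟩ = _
      exact hρ (Ideal.Quotient.mk _ a)
    have h3 : ι (e a) ∈ s.V := s.isOver (e a)
    refine ⟨((r.comp q).mem_pullRing _).2 ⟨h1, by rw [h2]; exact h3⟩, ?_⟩
    have h4 : (r.comp q).ρ ⟨a, h1⟩ ∈ s.V := by rw [h2]; exact h3
    show s.ρ ⟨(r.comp q).ρ ⟨a, h1⟩, h4⟩ = e a
    rw [show (⟨(r.comp q).ρ ⟨a, h1⟩, h4⟩ : s.V) = ⟨ι (e a), h3⟩ from Subtype.ext h2]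
    exact s.ρ_algebraMap (e a)

end Spots

namespace Model

variable {K : Type u} [Field K] {g : ℕ} (M : Model K g)

/-- The image of the generic point under an embedding, on a chart. -/
theorem map_gen_eq_pt (c : M.Chart) {F : Type u} [Field F] [Algebra K F] (j : M.FA →ₐ[K] F) :
    M.map (Spot.ofHom j) M.gen = M.pt c (j.comp (M.ring c).val) := by
  rw [← M.pt_gen c]
  exact M.map_pt c (Spot.ofHom j) _ _ (fun a => Spot.mem_ofHom j _) fun a => rfl

/-- The image of a point of a chart under an embedding. -/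
theorem map_ofHom_pt (c : M.Chart) {F E : Type u} [Field F] [Algebra K F] [Field E] [Algebra K E]
    (j : F →ₐ[K] E) (h : M.ring c →ₐ[K] F) :
    M.map (Spot.ofHom j) (M.pt c h) = M.pt c (j.comp h) :=
  M.map_pt c (Spot.ofHom j) _ _ (fun _ => Spot.mem_ofHom j _) fun _ => rfl

end Model

end FermatAgent.AV
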